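import Mathlib
import Fermat.Prelude.Def_ModularCurve_PeriodHomPair
import Fermat.Prelude.Def_ModularCurve_GenusNumerics

/-!
# S21 (Eichler–Shimura for `Γ₀(N)`): interface (blueprint by lead)

`periodHomPair N (f, g) = (1 + ι) P f + (1 - ι) P g`, where `P = periodMap N` and
`ι = charInvolution` (conjugation by `diag(1,-1)`).

Nothing is proved in this file.  Every package proves the statement bearing its name,
VERBATIM, in its own file (one file = one owner).  Packages:

* (PRIM)  every weight 2 cusp form has an equivariant primitive `F` (`F' = f`, `F → 0` at `i∞`,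
          `F ∘ γ - F` constant, `F ∘ δ` has a limit at `i∞` for every `δ ∈ SL(2,ℤ)`).
* (LIN)   `ExistsPeriodMapLinear N` (uniqueness of the primitive + closure under `+`, `•`).
* (PAR)   periods vanish on elements of trace `±2`.
* (HARM)  maximum principle: a holomorphic `G` on `ℍ` whose REAL PART is `Γ₀(N)`-invariant and
          such that `G ∘ δ` has a limit at `i∞` for every `δ`, is constant.
* (INJ)   injectivity of `periodHomPair`, from (PRIM) + (HARM) applied to
          `G₁ = F_a + F_b^*`, `G₂ = -i (F_a - F_b^*)`, `a = f + g`, `b = f - g`,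
          `F_b^*(z) = conj (F_b (-conj z))`.
* (DIM)   `dim Hom_par(Γ₀(N), ℂ) ≤ 2 * genusFormula N`  (pure algebra + counting on
          `SL(2,ℤ) ⧸ Γ₀(N)`; uses the orbit counts of `S`, `S T`, `T`).
* final:  S20 gives `dim S₂ = genusFormula N`, so the injective map `periodHomPair` into
          `parabolicHoms` is onto.
-/

set_option autoImplicit false

noncomputable section

namespace Fermat.Agent.S21

open UpperHalfPlane CongruenceSubgroup ModularCurve ModularCurve.Period
open scoped MatrixGroups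

/-- (PRIM) every weight 2 cusp form on `Γ₀(N)` has an equivariant primitive. -/
def PrimStatement (N : ℕ) [NeZero N] : Prop :=
  ∀ f : CuspForm (Gamma0 N) 2, ∃ F : ℍ → ℂ, HasEquivariantPrimitive N f F

/-- (UNIQ) the equivariant primitive is unique. -/
def PrimUniqueStatement (N : ℕ) [NeZero N] : Prop :=
  ∀ (f : CuspForm (Gamma0 N) 2) (F₁ F₂ : ℍ → ℂ),
    HasEquivariantPrimitive N f F₁ → HasEquivariantPrimitive N f F₂ → F₁ = F₂

/-- (PER) the period map is computed by ANY equivariant primitive. -/
def PeriodEqStatement (N : ℕ) [NeZero N] : Prop :=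
  ∀ (f : CuspForm (Gamma0 N) 2) (F : ℍ → ℂ), HasEquivariantPrimitive N f F →
    ∀ (γ : Gamma0 N) (z : ℍ),
      periodMap N f (Additive.ofMul γ) = F ((γ : SL(2, ℤ)) • z) - F z

/-- (LIN) the period map is linear. -/
def LinStatement (N : ℕ) [NeZero N] : Prop := ExistsPeriodMapLinear N

/-- (PAR) the periods of a cusp form vanish on the elements of trace `±2`. -/
def ParStatement (N : ℕ) [NeZero N] : Prop :=
  ∀ f : CuspForm (Gamma0 N) 2, periodMap N f ∈ parabolicHoms ℂ (Gamma0 N) ℂ

/-- (HARM) maximum principle on `Γ₀(N) \ ℍ ∪ cusps`. -/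
def HarmStatement (N : ℕ) [NeZero N] : Prop :=
  ∀ G : ℍ → ℂ, (∀ τ : ℍ, DifferentiableAt ℂ (G ∘ ofComplex) ↑τ) →
    (∀ γ ∈ Gamma0 N, ∀ z : ℍ, (G (γ • z)).re = (G z).re) →
    (∀ δ : SL(2, ℤ), ∃ L : ℂ, Filter.Tendsto (fun w : ℍ => G (δ • w)) atImInfty (nhds L)) →
    ∀ z w : ℍ, G z = G w

/-- (INJ) the map `(f, g) ↦ (1 + ι) P f + (1 - ι) P g` has trivial kernel. -/
def InjStatement (N : ℕ) [NeZero N] : Prop :=
  ∀ f g : CuspForm (Gamma0 N) 2,
    (periodMap N f + charInvolution N ℂ ℂ (periodMap N f))
      + (periodMap N g - charInvolution N ℂ ℂ (periodMap N g)) = 0 →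
    f = 0 ∧ g = 0

/-- (DIM) the space of parabolic homomorphisms is finite dimensional of dimension at most
`2 * genusFormula N`. -/
def DimStatement (N : ℕ) [NeZero N] : Prop :=
  Module.Finite ℂ (parabolicHoms ℂ (Gamma0 N) ℂ) ∧
    (Module.finrank ℂ (parabolicHoms ℂ (Gamma0 N) ℂ) : ℚ) ≤ 2 * genusFormula N

/-- (DIM-alg) the purely combinatorial core of (DIM): for a finite transitive `SL(2,ℤ)`-set
`X` with a base point whose stabiliser is `Γ₀(N)`, the bound in terms of orbit counts. -/
def DimOrbitStatement (N : ℕ) [NeZero N] : Prop :=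
  Module.Finite ℂ (parabolicHoms ℂ (Gamma0 N) ℂ) ∧
    Module.finrank ℂ (parabolicHoms ℂ (Gamma0 N) ℂ)
        + Nat.card (MulAction.orbitRel.Quotient (Subgroup.zpowers ModularGroup.S)
            (SL(2, ℤ) ⧸ Gamma0 N))
        + Nat.card (MulAction.orbitRel.Quotient
            (Subgroup.zpowers (ModularGroup.S * ModularGroup.T)) (SL(2, ℤ) ⧸ Gamma0 N))
        + Nat.card (MulAction.orbitRel.Quotient (Subgroup.zpowers ModularGroup.T)
            (SL(2, ℤ) ⧸ Gamma0 N))
      ≤ Nat.card (SL(2, ℤ) ⧸ Gamma0 N) + 2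

/-- The statement S21 itself, from the packages and `dim S₂(Γ₀(N)) = genusFormula N` (S20). -/
def FinalStatement (N : ℕ) [NeZero N] : Prop :=
  PrimStatement N → LinStatement N → ParStatement N → InjStatement N → DimStatement N →
    Module.Finite ℂ (CuspForm (Gamma0 N) 2) →
    ((Module.finrank ℂ (CuspForm (Gamma0 N) 2) : ℚ) = genusFormula N) →
    Function.Injective (periodHomPair N) ∧
      LinearMap.range (periodHomPair N) = parabolicHoms ℂ (Gamma0 N) ℂ

end Fermat.Agent.S21
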