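import Mathlib
import Fermat.Agent.S21.Defs
import Fermat.Agent.S22ES.CuspFacts

/-!
# S21 (PRIM): equivariant primitives of weight 2 cusp forms on `Γ₀(N)`

* `prim`        : `PrimStatement N`  (existence of an equivariant primitive),
* `primUnique`  : `PrimUniqueStatement N`,
* `periodEq`    : `PeriodEqStatement N`  (the period map is computed by any primitive).
-/

set_option autoImplicit false

noncomputable section

namespace Fermat.Agent.S21

open UpperHalfPlane hiding I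
open Complex Filter Function CongruenceSubgroup ModularCurve ModularCurve.Period
open scoped Topology Manifold MatrixGroups ModularForm

/-- `F` is a holomorphic primitive of `f` on the upper half plane. -/
def IsPrimOf (F f : ℍ → ℂ) : Prop :=
  ∀ τ : ℍ, HasDerivAt (F ∘ ofComplex) (f τ) ↑τ

theorem prim_isOpen_upper : IsOpen {w : ℂ | 0 < w.im} :=
  isOpen_lt continuous_const Complex.continuous_im

theorem prim_isPreconnected_upper : IsPreconnected {w : ℂ | 0 < w.im} :=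
  (convex_halfSpace_im_gt 0).isPreconnected

theorem IsPrimOf.add {F G f g : ℍ → ℂ} (hF : IsPrimOf F f) (hG : IsPrimOf G g) :
    IsPrimOf (F + G) (f + g) := fun τ => (hF τ).add (hG τ)

theorem IsPrimOf.sub {F G f g : ℍ → ℂ} (hF : IsPrimOf F f) (hG : IsPrimOf G g) :
    IsPrimOf (F - G) (f - g) := fun τ => (hF τ).sub (hG τ)

theorem IsPrimOf.const_smul {F f : ℍ → ℂ} (hF : IsPrimOf F f) (c : ℂ) :
    IsPrimOf (c • F) (c • f) := fun τ => (hF τ).const_smul c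

/-- A function on `ℍ` with vanishing derivative is constant. -/
theorem prim_const_of_isPrimOf_zero {G : ℍ → ℂ} (hG : IsPrimOf G 0) (z w : ℍ) : G z = G w := by
  have hd : DifferentiableOn ℂ (G ∘ ofComplex) {w : ℂ | 0 < w.im} := fun x hx =>
    (hG ⟨x, hx⟩).differentiableAt.differentiableWithinAt
  have hd' : Set.EqOn (deriv (G ∘ ofComplex)) 0 {w : ℂ | 0 < w.im} := fun x hx =>
    (hG ⟨x, hx⟩).deriv
  have := prim_isOpen_upper.is_const_of_deriv_eq_zero prim_isPreconnected_upper hd hd'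
    (x := (z : ℂ)) (y := (w : ℂ)) z.im_pos w.im_pos
  simpa using this

/-- Two primitives of the same function differ by a constant. -/
theorem prim_sub_const {F G f : ℍ → ℂ} (hF : IsPrimOf F f) (hG : IsPrimOf G f) (z w : ℍ) :
    F z - G z = F w - G w := by
  have h : IsPrimOf (F - G) 0 := by
    have := hF.sub hG
    rwa [sub_self] at this
  exact prim_const_of_isPrimOf_zero h z w

/-- The Möbius transformation attached to `σ`, as a function on `ℂ`. -/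
def primMoeb (σ : SL(2, ℤ)) (w : ℂ) : ℂ :=
  (((σ 0 0 : ℤ) : ℂ) * w + ((σ 0 1 : ℤ) : ℂ)) / (((σ 1 0 : ℤ) : ℂ) * w + ((σ 1 1 : ℤ) : ℂ))

theorem prim_coe_smul (σ : SL(2, ℤ)) (z : ℍ) : ((σ • z : ℍ) : ℂ) = primMoeb σ z := by
  rw [coe_specialLinearGroup_apply]
  simp [primMoeb]

theorem prim_denom (σ : SL(2, ℤ)) (z : ℍ) :
    denom σ z = ((σ 1 0 : ℤ) : ℂ) * z + ((σ 1 1 : ℤ) : ℂ) := by
  simp [denom]

theorem prim_det (σ : SL(2, ℤ)) :
    ((σ 0 0 : ℤ) : ℂ) * ((σ 1 1 : ℤ) : ℂ) - ((σ 0 1 : ℤ) : ℂ) * ((σ 1 0 : ℤ) : ℂ) = 1 := by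
  have h := σ.2
  rw [Matrix.det_fin_two] at h
  have h2 : (σ 0 0 : ℤ) * σ 1 1 - σ 0 1 * σ 1 0 = 1 := h
  exact_mod_cast congrArg (Int.cast : ℤ → ℂ) h2

theorem prim_hasDerivAt_moeb (σ : SL(2, ℤ)) (z : ℍ) :
    HasDerivAt (primMoeb σ) ((denom σ z) ^ (-2 : ℤ)) (z : ℂ) := by
  have hden : ((σ 1 0 : ℤ) : ℂ) * z + ((σ 1 1 : ℤ) : ℂ) ≠ 0 := by
    rw [← prim_denom]
    exact denom_ne_zero σ z
  have h1 : HasDerivAt (fun w : ℂ => ((σ 0 0 : ℤ) : ℂ) * w + ((σ 0 1 : ℤ) : ℂ))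
      ((σ 0 0 : ℤ) : ℂ) (z : ℂ) := by
    simpa using ((hasDerivAt_id (z : ℂ)).const_mul ((σ 0 0 : ℤ) : ℂ)).add_const
      ((σ 0 1 : ℤ) : ℂ)
  have h2 : HasDerivAt (fun w : ℂ => ((σ 1 0 : ℤ) : ℂ) * w + ((σ 1 1 : ℤ) : ℂ))
      ((σ 1 0 : ℤ) : ℂ) (z : ℂ) := by
    simpa using ((hasDerivAt_id (z : ℂ)).const_mul ((σ 1 0 : ℤ) : ℂ)).add_const
      ((σ 1 1 : ℤ) : ℂ)
  have h3 := h1.div h2 hden
  have hval : (((σ 0 0 : ℤ) : ℂ) * (((σ 1 0 : ℤ) : ℂ) * z + ((σ 1 1 : ℤ) : ℂ))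
      - (((σ 0 0 : ℤ) : ℂ) * z + ((σ 0 1 : ℤ) : ℂ)) * ((σ 1 0 : ℤ) : ℂ))
        / (((σ 1 0 : ℤ) : ℂ) * z + ((σ 1 1 : ℤ) : ℂ)) ^ 2 = (denom σ z) ^ (-2 : ℤ) := by
    rw [prim_denom, zpow_neg, div_eq_mul_inv]
    have hd := prim_det σ
    have : ((σ 0 0 : ℤ) : ℂ) * (((σ 1 0 : ℤ) : ℂ) * z + ((σ 1 1 : ℤ) : ℂ))
      - (((σ 0 0 : ℤ) : ℂ) * z + ((σ 0 1 : ℤ) : ℂ)) * ((σ 1 0 : ℤ) : ℂ) = 1 := by
      linear_combination hd
    rw [this, one_mul]
    norm_cast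
  rw [hval] at h3
  exact h3

/-- If `F` is a primitive of `f`, then `F ∘ σ` is a primitive of `f ∣[2] σ`. -/
theorem IsPrimOf.comp_smul {F f : ℍ → ℂ} (hF : IsPrimOf F f) (σ : SL(2, ℤ)) :
    IsPrimOf (fun w : ℍ => F (σ • w)) (f ∣[(2 : ℤ)] σ) := by
  intro τ
  have h1 : HasDerivAt (F ∘ ofComplex) (f (σ • τ)) (primMoeb σ τ) := by
    rw [← prim_coe_smul]
    exact hF (σ • τ)
  have h2 := h1.comp (τ : ℂ) (prim_hasDerivAt_moeb σ τ)
  have hval : f (σ • τ) * denom σ τ ^ (-2 : ℤ) = (f ∣[(2 : ℤ)] σ) τ := by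
    rw [ModularForm.SL_slash_apply]
  rw [hval] at h2
  refine h2.congr_of_eventuallyEq ?_
  filter_upwards [prim_isOpen_upper.mem_nhds τ.im_pos] with w hw
  simp only [Function.comp_apply, ofComplex_apply_of_im_pos hw]
  congr 1
  rw [← prim_coe_smul σ ⟨w, hw⟩]
  simp [ofComplex_apply]

/-- A primitive in the class `IsPerCusp` of a function in the class `IsPerCusp`. -/
theorem prim_exists_isPrimOf {h : ℝ} (hh : 0 < h) {g : ℍ → ℂ} (hg : S22ES.IsPerCusp h g) :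
    ∃ G : ℍ → ℂ, IsPrimOf G g ∧ Tendsto G atImInfty (𝓝 0) := by
  obtain ⟨G, hG, hGd⟩ := S22ES.exists_prim hh hg
  refine ⟨G, fun τ => ?_, hG.zero⟩
  have hd : DifferentiableAt ℂ (G ∘ ofComplex) (τ : ℂ) := by
    have := UpperHalfPlane.mdifferentiable_iff.mp hG.mdiff
    exact (this (τ : ℂ) τ.im_pos).differentiableAt (prim_isOpen_upper.mem_nhds τ.im_pos)
  have := hd.hasDerivAt
  rwa [hGd τ] at this

theorem prim_slash_eq {N : ℕ} (f : CuspForm (Gamma0 N) 2) (γ : Gamma0 N) :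
    (⇑f) ∣[(2 : ℤ)] (γ : SL(2, ℤ)) = ⇑f := by
  have h := SlashInvariantForm.slash_action_eqn f (Matrix.SpecialLinearGroup.mapGL ℝ (γ : SL(2, ℤ)))
    ⟨γ, γ.2, rfl⟩
  exact h

/-- (PRIM) existence of the equivariant primitive. -/
theorem prim (N : ℕ) [NeZero N] : PrimStatement N := by
  intro f
  obtain ⟨F, hF, hF0⟩ := prim_exists_isPrimOf one_pos (S22ES.isPerCusp_cuspForm f)
  refine ⟨F, hF, hF0, ?_, ?_⟩
  · intro γ
    refine ⟨F ((γ : SL(2, ℤ)) • UpperHalfPlane.I) - F UpperHalfPlane.I, fun z => ?_⟩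
    have h1 : IsPrimOf (fun w : ℍ => F ((γ : SL(2, ℤ)) • w)) ⇑f := by
      have := hF.comp_smul (γ : SL(2, ℤ))
      rwa [prim_slash_eq f γ] at this
    exact prim_sub_const h1 hF z UpperHalfPlane.I
  · intro δ
    obtain ⟨M, hM, hper⟩ := S22ES.exists_period_slash N
    obtain ⟨G, hG, hG0⟩ := prim_exists_isPrimOf (h := (M : ℝ)) (by exact_mod_cast hM)
      (hper 2 f δ)
    have h1 : IsPrimOf (fun w : ℍ => F (δ • w)) (⇑f ∣[(2 : ℤ)] δ) := hF.comp_smul δ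
    refine ⟨F (δ • UpperHalfPlane.I) - G UpperHalfPlane.I, ?_⟩
    have h2 : (fun w : ℍ => F (δ • w))
        = fun w => G w + (F (δ • UpperHalfPlane.I) - G UpperHalfPlane.I) := by
      funext w
      have := prim_sub_const h1 hG w UpperHalfPlane.I
      linear_combination this
    rw [h2]
    simpa using hG0.add_const (F (δ • UpperHalfPlane.I) - G UpperHalfPlane.I)

/-- (UNIQ) uniqueness of the equivariant primitive. -/
theorem primUnique (N : ℕ) [NeZero N] : PrimUniqueStatement N := by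
  intro f F₁ F₂ h₁ h₂
  funext z
  have hc : ∀ w : ℍ, F₁ w - F₂ w = F₁ z - F₂ z := fun w => prim_sub_const h₁.1 h₂.1 w z
  have h3 : Tendsto (fun w : ℍ => F₁ w - F₂ w) atImInfty (𝓝 (0 - 0)) := h₁.2.1.sub h₂.2.1
  have h4 : Tendsto (fun w : ℍ => F₁ w - F₂ w) atImInfty (𝓝 (F₁ z - F₂ z)) := by
    simp only [hc]
    exact tendsto_const_nhds
  have := tendsto_nhds_unique h4 h3
  rw [sub_zero] at this
  exact sub_eq_zero.mp this

/-- (PER) the period map is computed by any equivariant primitive. -/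
theorem periodEq (N : ℕ) [NeZero N] : PeriodEqStatement N := by
  intro f F hF γ z
  obtain ⟨F₀, h₀, hper⟩ := periodMap_def N f hF
  have hFF : F₀ = F := primUnique N f F₀ F h₀ hF
  subst hFF
  rw [hper, IsEquivariantPrimitive.periodHom_apply,
    ← IsEquivariantPrimitive.sub_eq_period _ γ z]

end Fermat.Agent.S21
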