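/-
S21, package (DIM), abstract linear algebra.  Owner: helper2.

A finite `G`-set `X`, elements `s t u : G` with `u = s t`, `s²`, `u³`, `t^N` acting trivially
on `X`, and such that the only functions on `X` invariant under `s` and `u` are the constants.
For a space `V` with a "cocycle parametrisation" `(cS, cU) : V → (X → ℂ)²` we prove
`dim V + #orb(s) + #orb(u) + #orb(t) ≤ |X| + 2`.
-/
import Mathlib

set_option autoImplicit false

noncomputable section

namespace Fermat.Agent.S21

open Module Finset

section Abstract

variable {G : Type*} [Group G] {X : Type*} [MulAction G X]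

/-- Functions on `X` invariant under `g`. -/
def dim_inv (g : G) : Submodule ℂ (X → ℂ) where
  carrier := {m | ∀ x, m (g • x) = m x}
  zero_mem' := fun _ => rfl
  add_mem' := by
    intro a b ha hb x
    simp only [Pi.add_apply, ha x, hb x]
  smul_mem' := by
    intro c a ha x
    simp only [Pi.smul_apply, ha x]

theorem dim_mem_inv {g : G} {m : X → ℂ} : m ∈ dim_inv (X := X) g ↔ ∀ x, m (g • x) = m x :=
  Iff.rfl

/-- The number of orbits of `⟨g⟩` is at most the dimension of the invariants. -/
theorem dim_card_orbits_le [Fintype X] (g : G) :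
    Nat.card (MulAction.orbitRel.Quotient (Subgroup.zpowers g) X) ≤
      finrank ℂ (dim_inv (X := X) g) := by
  classical
  let Ω := MulAction.orbitRel.Quotient (Subgroup.zpowers g) X
  have : Fintype Ω := Fintype.ofFinite Ω
  let f : (Ω → ℂ) →ₗ[ℂ] dim_inv (X := X) g :=
    { toFun := fun t => ⟨fun x => t (Quotient.mk'' x), by
        intro x
        have : (Quotient.mk'' (g • x) : Ω) = Quotient.mk'' x := by
          apply Quotient.sound'
          exact ⟨⟨g, Subgroup.mem_zpowers g⟩, rfl⟩
        simp only [this]⟩
      map_add' := fun _ _ => rfl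
      map_smul' := fun _ _ => rfl }
  have hf : Function.Injective f := by
    intro t t' h
    funext ω
    induction ω using Quotient.inductionOn' with
    | h x =>
      have := congrArg (fun m : dim_inv (X := X) g => (m : X → ℂ) x) h
      exact this
  have h1 := LinearMap.finrank_le_finrank_of_injective hf
  rw [Module.finrank_fintype_fun_eq_card] at h1
  rw [Nat.card_eq_fintype_card]
  exact h1

variable (s t u : G)

/-- `A = ker (1 + s^*)`. -/
def dim_A : Submodule ℂ (X → ℂ) where
  carrier := {a | ∀ x, a (s • x) + a x = 0}
  zero_mem' := fun _ => by simp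
  add_mem' := by
    intro a b ha hb x
    simp only [Pi.add_apply]
    linear_combination ha x + hb x
  smul_mem' := by
    intro c a ha x
    simp only [Pi.smul_apply, smul_eq_mul]
    linear_combination c * ha x

/-- `U' = ker (1 + u^* + u^*²)`. -/
def dim_U : Submodule ℂ (X → ℂ) where
  carrier := {b | ∀ x, b (u • u • x) + b (u • x) + b x = 0}
  zero_mem' := fun _ => by simp
  add_mem' := by
    intro a b ha hb x
    simp only [Pi.add_apply]
    linear_combination ha x + hb x
  smul_mem' := by
    intro c a ha x
    simp only [Pi.smul_apply, smul_eq_mul]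
    linear_combination c * ha x

theorem dim_finrank_A_add_le [Fintype X] :
    finrank ℂ (dim_A (X := X) s) + finrank ℂ (dim_inv (X := X) s) ≤ Fintype.card X := by
  have hdisj : Disjoint (dim_A (X := X) s) (dim_inv (X := X) s) := by
    rw [Submodule.disjoint_def]
    intro m hA hI
    funext x
    have h1 := hA x
    have h2 := hI x
    rw [h2] at h1
    have : (2 : ℂ) * m x = 0 := by linear_combination h1
    simpa using this
  have := Submodule.finrank_add_finrank_le_of_disjoint hdisj
  rwa [Module.finrank_fintype_fun_eq_card] at this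

theorem dim_finrank_U_add_le [Fintype X] :
    finrank ℂ (dim_U (X := X) u) + finrank ℂ (dim_inv (X := X) u) ≤ Fintype.card X := by
  have hdisj : Disjoint (dim_U (X := X) u) (dim_inv (X := X) u) := by
    rw [Submodule.disjoint_def]
    intro m hA hI
    funext x
    have h1 := hA x
    have h2 := hI x
    have h3 := hI (u • x)
    rw [h3, h2] at h1
    have : (3 : ℂ) * m x = 0 := by linear_combination h1
    simpa using this
  have := Submodule.finrank_add_finrank_le_of_disjoint hdisj
  rwa [Module.finrank_fintype_fun_eq_card] at this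

/-! ### The averaging operator over `t` -/

variable (N : ℕ)

/-- `Pavg m x = Σ_{j < N} m (t^j x)`. -/
def dim_P : (X → ℂ) →ₗ[ℂ] (X → ℂ) where
  toFun m := fun x => ∑ j ∈ range N, m (t ^ j • x)
  map_add' := by
    intro a b
    funext x
    simp only [Pi.add_apply, sum_add_distrib]
  map_smul' := by
    intro c a
    funext x
    simp only [Pi.smul_apply, smul_eq_mul, RingHom.id_apply, mul_sum]

theorem dim_P_apply (m : X → ℂ) (x : X) : dim_P t N m x = ∑ j ∈ range N, m (t ^ j • x) := rfl

variable {t N}

theorem dim_P_smul (ht : ∀ x : X, t ^ N • x = x) (m : X → ℂ) (x : X) :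
    dim_P t N m (t • x) = dim_P t N m x := by
  rw [dim_P_apply, dim_P_apply]
  have h1 : ∀ j, m (t ^ j • t • x) = m (t ^ (j + 1) • x) := by
    intro j
    rw [← mul_smul, ← pow_succ]
  simp only [h1]
  have h2 := sum_range_succ' (fun j => m (t ^ j • x)) N
  have h3 := sum_range_succ (fun j => m (t ^ j • x)) N
  simp only [pow_zero, one_smul, ht] at h2 h3
  rw [h3] at h2
  exact (add_right_cancel h2).symm

theorem dim_P_comp_smul (ht : ∀ x : X, t ^ N • x = x) (m : X → ℂ) :
    dim_P t N (fun x => m (t • x)) = dim_P t N m := by
  funext x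
  rw [← dim_P_smul ht m x, dim_P_apply, dim_P_apply]
  refine sum_congr rfl (fun j _ => ?_)
  rw [← mul_smul, ← mul_smul, ← pow_succ, ← pow_succ']

theorem dim_P_mem_inv (ht : ∀ x : X, t ^ N • x = x) (m : X → ℂ) :
    dim_P t N m ∈ dim_inv (X := X) t :=
  fun x => dim_P_smul ht m x

theorem dim_P_of_inv {m : X → ℂ} (hm : m ∈ dim_inv (X := X) t) :
    dim_P t N m = (N : ℂ) • m := by
  funext x
  have h1 : ∀ j : ℕ, m (t ^ j • x) = m x := by
    intro j
    induction j with
    | zero => simp
    | succ j ih => rw [pow_succ', mul_smul, hm, ih]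
  rw [dim_P_apply]
  simp only [h1, sum_const, card_range, Pi.smul_apply, smul_eq_mul, nsmul_eq_mul]

end Abstract

end Fermat.Agent.S21
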