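/-
S21, package (DIM): the key rank bound (duality argument).  Owner: helper2.
-/
import Mathlib
import Fermat.Agent.S21.DimLin

set_option autoImplicit false

noncomputable section

namespace Fermat.Agent.S21

open Module Finset

section Key

variable {G : Type*} [Group G] {X : Type*} [MulAction G X]
variable {s t u : G} {N : ℕ}

/-- `Pavg` with values in the `t`-invariants. -/
def dim_Pc (ht : ∀ x : X, t ^ N • x = x) : (X → ℂ) →ₗ[ℂ] dim_inv (X := X) t :=
  LinearMap.codRestrict (dim_inv t) (dim_P t N) (fun m => dim_P_mem_inv ht m)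

/-- `L (a, b) = Pavg (b - a)`. -/
def dim_L (s u : G) (ht : ∀ x : X, t ^ N • x = x) :
    (dim_A (X := X) s × dim_U (X := X) u) →ₗ[ℂ] dim_inv (X := X) t :=
  (dim_Pc ht).comp ((dim_U u).subtype.comp (LinearMap.snd ℂ _ _) -
    (dim_A s).subtype.comp (LinearMap.fst ℂ _ _))

theorem dim_L_apply (ht : ∀ x : X, t ^ N • x = x) (w : dim_A (X := X) s × dim_U (X := X) u) :
    ((dim_L s u ht w : dim_inv (X := X) t) : X → ℂ) =
      dim_P t N ((w.2 : X → ℂ) - (w.1 : X → ℂ)) := rfl

theorem dim_sub_comp_mem_A (hs : ∀ x : X, s • s • x = x) (m : X → ℂ) :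
    (fun x => m x - m (s • x)) ∈ dim_A (X := X) s := by
  intro x
  simp only [hs]
  ring

theorem dim_sub_comp_mem_U (hu : ∀ x : X, u • u • u • x = x) (m : X → ℂ) :
    (fun x => m x - m (u • x)) ∈ dim_U (X := X) u := by
  intro x
  simp only [hu]
  ring

/-- The sum functional on the `t`-invariants. -/
def dim_sigma [Fintype X] (t : G) : Dual ℂ (dim_inv (X := X) t) where
  toFun v := ∑ x, (v : X → ℂ) x
  map_add' := by
    intro a b
    simp only [Submodule.coe_add, Pi.add_apply, sum_add_distrib]
  map_smul' := by
    intro c a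
    simp only [Submodule.coe_smul, Pi.smul_apply, smul_eq_mul, RingHom.id_apply, mul_sum]

/-- **Key rank bound**: the orbit-sum map `L` has corank at most one in the `t`-invariants. -/
theorem dim_finrank_inv_le [Fintype X] (hN : 0 < N) (hs : ∀ x : X, s • s • x = x)
    (hu : ∀ x : X, u • u • u • x = x) (ht : ∀ x : X, t ^ N • x = x)
    (hconn : ∀ m : X → ℂ, (∀ x, m (s • x) = m x) → (∀ x, m (u • x) = m x) → ∀ x y, m x = m y)
    (x₀ : X) :
    finrank ℂ (dim_inv (X := X) t) ≤ finrank ℂ (LinearMap.range (dim_L s u ht)) + 1 := by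
  classical
  set L := dim_L (X := X) s u ht with hL
  have h1 := LinearMap.finrank_range_dualMap_eq_finrank_range L
  have h2 := LinearMap.finrank_range_add_finrank_ker L.dualMap
  have h3 : finrank ℂ (Dual ℂ (dim_inv (X := X) t)) = finrank ℂ (dim_inv (X := X) t) :=
    Subspace.dual_finrank_eq
  have h4 : finrank ℂ (LinearMap.ker L.dualMap) ≤ 1 := by
    have hle : LinearMap.ker L.dualMap ≤ Submodule.span ℂ {dim_sigma (X := X) t} := by
      intro θ hθ
      rw [LinearMap.mem_ker] at hθ
      have hθ' : ∀ w, θ (L w) = 0 := by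
        intro w
        have := congrArg (fun f : Dual ℂ _ => f w) hθ
        simpa [LinearMap.dualMap_apply] using this
      set ψ : (X → ℂ) →ₗ[ℂ] ℂ := θ.comp (dim_Pc ht) with hψ
      set τ : X → ℂ := fun y => ψ (fun j => if y = j then 1 else 0) with hτ
      have hsum : ∀ m : X → ℂ, ψ m = ∑ y, m y * τ y := by
        intro m
        have := LinearMap.pi_apply_eq_sum_univ ψ m
        simpa [smul_eq_mul] using this
      -- `ψ` vanishes on `A` and on `U'`
      have hψA : ∀ a ∈ dim_A (X := X) s, ψ a = 0 := by
        intro a ha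
        have := hθ' (⟨a, ha⟩, 0)
        have e : L (⟨a, ha⟩, 0) = -(dim_Pc ht a) := by
          apply Subtype.ext
          rw [hL, dim_L_apply]
          simp only [ZeroMemClass.coe_zero, zero_sub, map_neg]
          rfl
        rw [e, map_neg, neg_eq_zero] at this
        exact this
      have hψU : ∀ b ∈ dim_U (X := X) u, ψ b = 0 := by
        intro b hb
        have := hθ' (0, ⟨b, hb⟩)
        have e : L (0, ⟨b, hb⟩) = dim_Pc ht b := by
          apply Subtype.ext
          rw [hL, dim_L_apply]
          simp only [ZeroMemClass.coe_zero, sub_zero]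
          rfl
        rw [e] at this
        exact this
      -- `τ` is invariant under `s` and `u`
      have hinv : ∀ g : G, (∀ m : X → ℂ, ψ (fun x => m x - m (g • x)) = 0) →
          ∀ z, τ (g • z) = τ z := by
        intro g hg z
        have := hg (fun j => if g • z = j then 1 else 0)
        have e : (fun x => (if g • z = x then (1 : ℂ) else 0) - (if g • z = g • x then 1 else 0))
            = (fun j => if g • z = j then (1 : ℂ) else 0) - (fun j => if z = j then 1 else 0) := by
          funext x
          simp only [Pi.sub_apply, smul_left_cancel_iff]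
        rw [e, map_sub, sub_eq_zero] at this
        exact this
      have hτs : ∀ z, τ (s • z) = τ z :=
        hinv s (fun m => hψA _ (dim_sub_comp_mem_A hs m))
      have hτu : ∀ z, τ (u • z) = τ z :=
        hinv u (fun m => hψU _ (dim_sub_comp_mem_U hu m))
      have hconst : ∀ y, τ y = τ x₀ := fun y => hconn τ hτs hτu y x₀
      rw [Submodule.mem_span_singleton]
      refine ⟨τ x₀ / N, ?_⟩
      apply LinearMap.ext
      intro v
      have hN' : (N : ℂ) ≠ 0 := by exact_mod_cast hN.ne'
      have e1 : ψ (v : X → ℂ) = (N : ℂ) * θ v := by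
        have : dim_Pc ht (v : X → ℂ) = (N : ℂ) • v := by
          apply Subtype.ext
          exact dim_P_of_inv v.2
        rw [hψ, LinearMap.comp_apply, this, map_smul, smul_eq_mul]
      have e2 : ψ (v : X → ℂ) = τ x₀ * ∑ y, (v : X → ℂ) y := by
        rw [hsum, mul_sum]
        refine sum_congr rfl (fun y _ => ?_)
        rw [hconst y, mul_comm]
      have e3 : θ v = τ x₀ / N * ∑ y, (v : X → ℂ) y := by
        have := e1.symm.trans e2
        field_simp
        linear_combination this
      rw [e3]
      rfl
    refine (Submodule.finrank_mono hle).trans ?_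
    refine (finrank_span_le_card ({dim_sigma (X := X) t} : Set _)).trans ?_
    simp
  omega

end Key

end Fermat.Agent.S21
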