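/-
S21, package (DIM): the abstract dimension bound.  Owner: helper2.
-/
import Mathlib
import Fermat.Agent.S21.DimLin
import Fermat.Agent.S21.DimKey

set_option autoImplicit false

noncomputable section

namespace Fermat.Agent.S21

open Module Finset

section Main

variable {G : Type*} [Group G] {X : Type*} [Fintype X] [MulAction G X]
variable {s t u : G} {N : ℕ}

/-- The abstract dimension bound. -/
theorem dim_abstract {V : Type*} [AddCommGroup V] [Module ℂ V]
    (hN : 0 < N) (hs : ∀ x : X, s • s • x = x)
    (hu : ∀ x : X, u • u • u • x = x) (ht : ∀ x : X, t ^ N • x = x)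
    (hus : ∀ x : X, u • x = s • t • x)
    (hconn : ∀ m : X → ℂ, (∀ x, m (s • x) = m x) → (∀ x, m (u • x) = m x) → ∀ x y, m x = m y)
    (x₀ : X)
    (cS cU : V →ₗ[ℂ] (X → ℂ))
    (hA : ∀ φ, cS φ ∈ dim_A (X := X) s)
    (hU : ∀ φ, cU φ ∈ dim_U (X := X) u)
    (hP : ∀ φ, dim_P t N (cU φ - cS φ) = 0)
    (hinj : ∀ φ (m : X → ℂ), (∀ x, cS φ x = m x - m (s • x)) →
      (∀ x, cU φ x = m x - m (u • x)) → φ = 0) :
    Module.Finite ℂ V ∧
      finrank ℂ V + Nat.card (MulAction.orbitRel.Quotient (Subgroup.zpowers s) X)
        + Nat.card (MulAction.orbitRel.Quotient (Subgroup.zpowers u) X)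
        + Nat.card (MulAction.orbitRel.Quotient (Subgroup.zpowers t) X)
      ≤ Fintype.card X + 2 := by
  classical
  -- the map `Ψ`
  let Ψ₁ : V × (X → ℂ) →ₗ[ℂ] dim_A (X := X) s :=
    { toFun := fun p => ⟨fun x => cS p.1 x - (p.2 x - p.2 (s • x)),
        (dim_A s).sub_mem (hA p.1) (dim_sub_comp_mem_A hs p.2)⟩
      map_add' := by
        intro p q
        apply Subtype.ext
        funext x
        simp only [Prod.fst_add, Prod.snd_add, map_add, Pi.add_apply, Submodule.coe_add]
        ring
      map_smul' := by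
        intro c p
        apply Subtype.ext
        funext x
        simp only [Prod.smul_fst, Prod.smul_snd, map_smul, Pi.smul_apply, smul_eq_mul,
          RingHom.id_apply, Submodule.coe_smul]
        ring }
  let Ψ₂ : V × (X → ℂ) →ₗ[ℂ] dim_U (X := X) u :=
    { toFun := fun p => ⟨fun x => cU p.1 x - (p.2 x - p.2 (u • x)),
        (dim_U u).sub_mem (hU p.1) (dim_sub_comp_mem_U hu p.2)⟩
      map_add' := by
        intro p q
        apply Subtype.ext
        funext x
        simp only [Prod.fst_add, Prod.snd_add, map_add, Pi.add_apply, Submodule.coe_add]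
        ring
      map_smul' := by
        intro c p
        apply Subtype.ext
        funext x
        simp only [Prod.smul_fst, Prod.smul_snd, map_smul, Pi.smul_apply, smul_eq_mul,
          RingHom.id_apply, Submodule.coe_smul]
        ring }
  let Ψ : V × (X → ℂ) →ₗ[ℂ] (dim_A (X := X) s × dim_U (X := X) u) := Ψ₁.prod Ψ₂
  have hΨ : ∀ p : V × (X → ℂ), Ψ p = 0 →
      (∀ x, cS p.1 x = p.2 x - p.2 (s • x)) ∧ (∀ x, cU p.1 x = p.2 x - p.2 (u • x)) := by
    intro p hp
    have h1 : Ψ₁ p = 0 := congrArg Prod.fst hp
    have h2 : Ψ₂ p = 0 := congrArg Prod.snd hp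
    constructor
    · intro x
      have := congrArg (fun a : dim_A (X := X) s => (a : X → ℂ) x) h1
      simp only [Ψ₁, LinearMap.coe_mk, AddHom.coe_mk, ZeroMemClass.coe_zero, Pi.zero_apply] at this
      linear_combination this
    · intro x
      have := congrArg (fun a : dim_U (X := X) u => (a : X → ℂ) x) h2
      simp only [Ψ₂, LinearMap.coe_mk, AddHom.coe_mk, ZeroMemClass.coe_zero, Pi.zero_apply] at this
      linear_combination this
  -- finiteness of `V`
  have hfin : Module.Finite ℂ V := by
    have hinj' : Function.Injective (Ψ.comp (LinearMap.inl ℂ V (X → ℂ))) := by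
      rw [injective_iff_map_eq_zero]
      intro φ hφ
      have := hΨ (φ, 0) hφ
      exact hinj φ 0 (by simpa using this.1) (by simpa using this.2)
    exact FiniteDimensional.of_injective _ hinj'
  refine ⟨hfin, ?_⟩
  -- the kernel of `Ψ`
  have hker : finrank ℂ (LinearMap.ker Ψ) ≤ 1 := by
    have hle : LinearMap.ker Ψ ≤ Submodule.span ℂ {((0 : V), (fun _ => (1 : ℂ) : X → ℂ))} := by
      intro p hp
      rw [LinearMap.mem_ker] at hp
      obtain ⟨h1, h2⟩ := hΨ p hp
      have hφ : p.1 = 0 := hinj p.1 p.2 h1 h2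
      have hm : ∀ x y, p.2 x = p.2 y := by
        apply hconn
        · intro x
          have := h1 x
          rw [hφ] at this
          simp only [map_zero, Pi.zero_apply] at this
          linear_combination this
        · intro x
          have := h2 x
          rw [hφ] at this
          simp only [map_zero, Pi.zero_apply] at this
          linear_combination this
      rw [Submodule.mem_span_singleton]
      refine ⟨p.2 x₀, ?_⟩
      ext x
      · simp [hφ]
      · simp [hm x x₀]
    refine (Submodule.finrank_mono hle).trans ?_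
    refine (finrank_span_le_card ({((0 : V), (fun _ => (1 : ℂ) : X → ℂ))} : Set _)).trans ?_
    simp
  -- `range Ψ ≤ ker L`
  have hrange : LinearMap.range Ψ ≤ LinearMap.ker (dim_L (X := X) s u ht) := by
    rintro _ ⟨p, rfl⟩
    rw [LinearMap.mem_ker]
    apply Subtype.ext
    rw [dim_L_apply]
    have e1' : ((Ψ p).1 : X → ℂ) = fun x => cS p.1 x - (p.2 x - p.2 (s • x)) := rfl
    have e2' : ((Ψ p).2 : X → ℂ) = fun x => cU p.1 x - (p.2 x - p.2 (u • x)) := rfl
    have e : ((Ψ p).2 : X → ℂ) - ((Ψ p).1 : X → ℂ) =
        (cU p.1 - cS p.1) + ((fun x => p.2 (s • t • x)) - fun y => p.2 (s • y)) := by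
      rw [e1', e2']
      funext x
      simp only [Pi.sub_apply, Pi.add_apply, hus]
      ring
    have e3 : dim_P t N (fun x => p.2 (s • t • x)) = dim_P t N (fun y => p.2 (s • y)) :=
      dim_P_comp_smul ht (fun y => p.2 (s • y))
    rw [e, map_add, hP, zero_add, map_sub, e3, sub_self]
    rfl
  -- dimension count
  have e1 : finrank ℂ (V × (X → ℂ)) = finrank ℂ V + Fintype.card X := by
    rw [Module.finrank_prod, Module.finrank_fintype_fun_eq_card]
  have e2 := LinearMap.finrank_range_add_finrank_ker Ψ
  have e3 := Submodule.finrank_mono hrange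
  have e4 := LinearMap.finrank_range_add_finrank_ker (dim_L (X := X) s u ht)
  have e5 : finrank ℂ (dim_A (X := X) s × dim_U (X := X) u) =
      finrank ℂ (dim_A (X := X) s) + finrank ℂ (dim_U (X := X) u) := Module.finrank_prod
  have e6 := dim_finrank_inv_le hN hs hu ht hconn x₀
  have e7 := dim_card_orbits_le (X := X) s
  have e8 := dim_card_orbits_le (X := X) u
  have e9 := dim_card_orbits_le (X := X) t
  have e10 := dim_finrank_A_add_le (X := X) s
  have e11 := dim_finrank_U_add_le (X := X) u
  omega

end Main

end Fermat.Agent.S21
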