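/-
S21, package (DIM): the cocycle of a homomorphism.  Owner: helper2.
-/
import Mathlib

set_option autoImplicit false

noncomputable section

namespace Fermat.Agent.S21

open Module Finset


/-! ### The cocycle of a homomorphism `Γ → ℂ` on `G ⧸ Γ` -/

section Cocycle

variable {G : Type*} [Group G] (Γ : Subgroup G)

/-- `γ(g, x) = r(g x)⁻¹ g r(x) ∈ Γ` for the section `r = Quotient.out`. -/
def dim_gam (g : G) (x : G ⧸ Γ) : Γ :=
  ⟨(Quotient.out (g • x) : G)⁻¹ * (g * Quotient.out x), by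
    rw [← QuotientGroup.eq]
    have h1 : ((Quotient.out (g • x) : G) : G ⧸ Γ) = g • x := QuotientGroup.out_eq' _
    have h2 : ((g * Quotient.out x : G) : G ⧸ Γ) = g • x := by
      conv_rhs => rw [← QuotientGroup.out_eq' x]
      rfl
    rw [h1, h2]⟩

theorem dim_gam_coe (g : G) (x : G ⧸ Γ) :
    ((dim_gam Γ g x : Γ) : G) = (Quotient.out (g • x) : G)⁻¹ * (g * Quotient.out x) := rfl

theorem dim_gam_mul (g h : G) (x : G ⧸ Γ) :
    dim_gam Γ (g * h) x = dim_gam Γ g (h • x) * dim_gam Γ h x := by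
  apply Subtype.ext
  rw [Subgroup.coe_mul, dim_gam_coe, dim_gam_coe, dim_gam_coe, mul_smul]
  group

theorem dim_gam_of_fixed {g : G} {x : G ⧸ Γ} (h : g • x = x) :
    ((dim_gam Γ g x : Γ) : G) = (Quotient.out x : G)⁻¹ * (g * Quotient.out x) := by
  rw [dim_gam_coe, h]

variable {Γ}

/-- The cocycle attached to `φ`. -/
def dim_coc (φ : Additive Γ →+ ℂ) (g : G) (x : G ⧸ Γ) : ℂ :=
  φ (Additive.ofMul (dim_gam Γ g x))

theorem dim_coc_mul (φ : Additive Γ →+ ℂ) (g h : G) (x : G ⧸ Γ) :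
    dim_coc φ (g * h) x = dim_coc φ g (h • x) + dim_coc φ h x := by
  unfold dim_coc
  rw [dim_gam_mul, ofMul_mul, map_add]

theorem dim_coc_pow (φ : Additive Γ →+ ℂ) (t : G) (k : ℕ) (x : G ⧸ Γ) :
    dim_coc φ (t ^ k) x = ∑ j ∈ range k, dim_coc φ t (t ^ j • x) := by
  induction k with
  | zero =>
    have := dim_coc_mul φ 1 1 x
    rw [one_mul, one_smul] at this
    simp only [pow_zero, range_zero, sum_empty]
    linear_combination -this
  | succ k ih =>
    rw [pow_succ', dim_coc_mul, ih, sum_range_succ]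
    ring

/-- `φ` is recovered from its cocycle at the base point. -/
theorem dim_coc_base (φ : Additive Γ →+ ℂ) (γ₀ : Γ) :
    dim_coc φ (γ₀ : G) ((1 : G) : G ⧸ Γ) = φ (Additive.ofMul γ₀) := by
  have hfix : (γ₀ : G) • (((1 : G) : G ⧸ Γ)) = ((1 : G) : G ⧸ Γ) := by
    change (((γ₀ : G) * 1 : G) : G ⧸ Γ) = _
    rw [QuotientGroup.eq]
    simp [γ₀.2]
  have hρ : (Quotient.out (((1 : G) : G ⧸ Γ)) : G) ∈ Γ := by
    have h1 : ((Quotient.out (((1 : G) : G ⧸ Γ)) : G) : G ⧸ Γ) = ((1 : G) : G ⧸ Γ) :=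
      QuotientGroup.out_eq' _
    rw [QuotientGroup.eq] at h1
    have := inv_mem h1
    simpa using this
  set ρ : Γ := ⟨_, hρ⟩ with hρdef
  have e : dim_gam Γ (γ₀ : G) ((1 : G) : G ⧸ Γ) = ρ⁻¹ * (γ₀ * ρ) := by
    apply Subtype.ext
    rw [dim_gam_of_fixed Γ hfix]
    rfl
  unfold dim_coc
  rw [e, ofMul_mul, ofMul_mul, ofMul_inv, map_add, map_add, map_neg]
  ring

/-- A cocycle vanishing on two generators vanishes identically. -/
theorem dim_cocycle_eq_zero {X : Type*} [MulAction G X] (d : G → X → ℂ)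
    (hd : ∀ g h x, d (g * h) x = d g (h • x) + d h x) (s t : G)
    (hgen : Subgroup.closure {s, t} = ⊤) (hs : ∀ x, d s x = 0) (ht : ∀ x, d t x = 0) :
    ∀ g x, d g x = 0 := by
  have h1 : ∀ x, d 1 x = 0 := by
    intro x
    have := hd 1 1 x
    rw [one_mul, one_smul] at this
    linear_combination -this
  let K : Subgroup G :=
    { carrier := {g | ∀ x, d g x = 0}
      mul_mem' := by
        intro a b ha hb x
        rw [hd, ha, hb, add_zero]
      one_mem' := h1
      inv_mem' := by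
        intro a ha y
        have := hd a⁻¹ a (a⁻¹ • y)
        rw [inv_mul_cancel, h1, smul_inv_smul, ha, add_zero] at this
        exact this.symm }
  have hK : K = ⊤ := by
    rw [eq_top_iff, ← hgen, Subgroup.closure_le]
    rintro g (rfl | rfl)
    · exact hs
    · exact ht
  intro g x
  have : g ∈ K := by rw [hK]; exact Subgroup.mem_top g
  exact this x

end Cocycle

end Fermat.Agent.S21
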