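/-
S21, package (DIM): `dimOrbit : DimOrbitStatement N` and `dim : DimStatement N`.
Owner: helper2.
-/
import Mathlib
import Fermat.Agent.S21.Defs
import Fermat.Agent.S21.DimAbs
import Fermat.Agent.S21.DimCoc
import Fermat.Agent.S24.Comb

set_option autoImplicit false

noncomputable section

namespace Fermat.Agent.S21

open Module Finset CongruenceSubgroup ModularCurve ModularCurve.Period Fermat.Agent.S24
open scoped MatrixGroups

section Concrete

variable (N : ℕ)

theorem dim_trace_conj (a g : SL(2, ℤ)) :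
    ((a⁻¹ * (g * a) : SL(2, ℤ)) : Matrix (Fin 2) (Fin 2) ℤ).trace =
      (g : Matrix (Fin 2) (Fin 2) ℤ).trace := by
  rw [Matrix.SpecialLinearGroup.coe_mul, Matrix.trace_mul_comm,
    ← Matrix.SpecialLinearGroup.coe_mul, mul_assoc, mul_inv_cancel, mul_one]

/-- The cocycle of a parabolic homomorphism vanishes at `(g, x)` whenever `g` fixes `x` and
has trace `±2`. -/
theorem dim_coc_par {φ : Additive (Gamma0 N) →+ ℂ} (hφ : IsParabolicHom (Gamma0 N) φ)
    {g : SL(2, ℤ)} {x : SL(2, ℤ) ⧸ Gamma0 N} (hfix : g • x = x)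
    (htr : (g : Matrix (Fin 2) (Fin 2) ℤ).trace ^ 2 = 4) : dim_coc φ g x = 0 := by
  apply hφ
  rw [dim_gam_of_fixed _ hfix, dim_trace_conj]
  exact htr

theorem dim_trace_S_sq :
    ((ModularGroup.S * ModularGroup.S : SL(2, ℤ)) : Matrix (Fin 2) (Fin 2) ℤ).trace ^ 2 = 4 := by
  rw [Matrix.SpecialLinearGroup.coe_mul, ModularGroup.coe_S]
  simp [Matrix.trace_fin_two]

theorem dim_trace_ST_cube :
    ((ModularGroup.S * ModularGroup.T * (ModularGroup.S * ModularGroup.T) *
      (ModularGroup.S * ModularGroup.T) : SL(2, ℤ)) : Matrix (Fin 2) (Fin 2) ℤ).trace ^ 2 = 4 := by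
  simp only [Matrix.SpecialLinearGroup.coe_mul, ModularGroup.coe_S, ModularGroup.coe_T]
  simp [Matrix.trace_fin_two]

theorem dim_trace_T_pow (k : ℕ) :
    ((ModularGroup.T ^ k : SL(2, ℤ)) : Matrix (Fin 2) (Fin 2) ℤ).trace ^ 2 = 4 := by
  have h : (ModularGroup.T ^ k : SL(2, ℤ)) = ModularGroup.T ^ (k : ℤ) := (zpow_natCast _ _).symm
  rw [h, ModularGroup.coe_T_zpow]
  simp [Matrix.trace_fin_two]

theorem dim_S_smul (x : SL(2, ℤ) ⧸ Gamma0 N) : ModularGroup.S • ModularGroup.S • x = x := by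
  have := Comb.S_sq_smul N x
  rwa [pow_two, mul_smul] at this

theorem dim_ST_smul (x : SL(2, ℤ) ⧸ Gamma0 N) :
    (ModularGroup.S * ModularGroup.T) • (ModularGroup.S * ModularGroup.T) •
      (ModularGroup.S * ModularGroup.T) • x = x := by
  have := Comb.ST_cube_smul N x
  rwa [pow_succ, pow_two, mul_smul, mul_smul] at this

theorem dim_T_pow_smul (x : SL(2, ℤ) ⧸ Gamma0 N) : ModularGroup.T ^ N • x = x := by
  induction x using QuotientGroup.induction_on with
  | H γ =>
    have h : (ModularGroup.T ^ N : SL(2, ℤ)) = ModularGroup.T ^ (N : ℤ) :=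
      (zpow_natCast _ _).symm
    rw [h, Comb.smul_mk, Comb.mk_eq_mk_iff, Comb.cross, Comb.T_zpow_mul_apply_zero,
      Comb.T_zpow_mul_apply_one]
    exact ⟨γ 1 0 * γ 1 0, by ring⟩

/-- Functions on `SL(2,ℤ) ⧸ Γ₀(N)` invariant under `S` and `S T` are constant. -/
theorem dim_conn (m : SL(2, ℤ) ⧸ Gamma0 N → ℂ) (hS : ∀ x, m (ModularGroup.S • x) = m x)
    (hU : ∀ x, m ((ModularGroup.S * ModularGroup.T) • x) = m x) : ∀ x y, m x = m y := by
  let K : Subgroup SL(2, ℤ) :=
    { carrier := {g | ∀ x, m (g • x) = m x}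
      mul_mem' := by
        intro a b ha hb x
        rw [mul_smul, ha, hb]
      one_mem' := fun x => by rw [one_smul]
      inv_mem' := by
        intro a ha x
        have := ha (a⁻¹ • x)
        rw [smul_inv_smul] at this
        exact this.symm }
  have hSK : ModularGroup.S ∈ K := hS
  have hUK : ModularGroup.S * ModularGroup.T ∈ K := hU
  have hTK : ModularGroup.T ∈ K := by
    have := K.mul_mem (K.inv_mem hSK) hUK
    rwa [inv_mul_cancel_left] at this
  have hK : K = ⊤ := by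
    rw [eq_top_iff, ← SpecialLinearGroup.SL2Z_generators, Subgroup.closure_le]
    rintro g (rfl | rfl)
    · exact hSK
    · exact hTK
  intro x y
  obtain ⟨g, rfl⟩ := MulAction.exists_smul_eq SL(2, ℤ) x y
  have : g ∈ K := by rw [hK]; exact Subgroup.mem_top g
  exact (this x).symm

/-- The cocycle as a linear map in `φ`. -/
def dim_cocL (g : SL(2, ℤ)) :
    parabolicHoms ℂ (Gamma0 N) ℂ →ₗ[ℂ] (SL(2, ℤ) ⧸ Gamma0 N → ℂ) where
  toFun φ := fun x => dim_coc (φ : Additive (Gamma0 N) →+ ℂ) g x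
  map_add' := by
    intro φ ψ
    funext x
    rfl
  map_smul' := by
    intro c φ
    funext x
    rfl

theorem dim_cocL_apply (g : SL(2, ℤ)) (φ : parabolicHoms ℂ (Gamma0 N) ℂ)
    (x : SL(2, ℤ) ⧸ Gamma0 N) :
    dim_cocL N g φ x = dim_coc (φ : Additive (Gamma0 N) →+ ℂ) g x := rfl

/-- **(DIM-alg)** -/
theorem dimOrbit [NeZero N] : DimOrbitStatement N := by
  classical
  have : Finite (SL(2, ℤ) ⧸ Gamma0 N) := Comb.finite_X N (NeZero.ne N)
  let _ : Fintype (SL(2, ℤ) ⧸ Gamma0 N) := Fintype.ofFinite _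
  have hN : 0 < N := Nat.pos_of_ne_zero (NeZero.ne N)
  have hpar : ∀ φ : parabolicHoms ℂ (Gamma0 N) ℂ,
      IsParabolicHom (Gamma0 N) (φ : Additive (Gamma0 N) →+ ℂ) := fun φ => φ.2
  have key := dim_abstract (X := SL(2, ℤ) ⧸ Gamma0 N) (s := ModularGroup.S)
    (t := ModularGroup.T) (u := ModularGroup.S * ModularGroup.T) (N := N)
    (V := parabolicHoms ℂ (Gamma0 N) ℂ) hN (dim_S_smul N) (dim_ST_smul N) (dim_T_pow_smul N)
    (fun x => mul_smul _ _ x) (dim_conn N) ((1 : SL(2, ℤ)) : SL(2, ℤ) ⧸ Gamma0 N)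
    (dim_cocL N ModularGroup.S) (dim_cocL N (ModularGroup.S * ModularGroup.T))
    ?_ ?_ ?_ ?_
  · have hc : Nat.card (SL(2, ℤ) ⧸ Gamma0 N) = Fintype.card (SL(2, ℤ) ⧸ Gamma0 N) :=
      Nat.card_eq_fintype_card
    unfold DimOrbitStatement
    rw [hc]
    exact key
  · -- `cS φ ∈ A`
    intro φ x
    rw [dim_cocL_apply, dim_cocL_apply, ← dim_coc_mul]
    exact dim_coc_par N (hpar φ) (by rw [mul_smul]; exact dim_S_smul N x) dim_trace_S_sq
  · -- `cU φ ∈ U'`
    intro φ x
    rw [dim_cocL_apply, dim_cocL_apply, dim_cocL_apply]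
    have h1 := dim_coc_mul (φ : Additive (Gamma0 N) →+ ℂ)
      (ModularGroup.S * ModularGroup.T * (ModularGroup.S * ModularGroup.T))
      (ModularGroup.S * ModularGroup.T) x
    have h2 := dim_coc_mul (φ : Additive (Gamma0 N) →+ ℂ)
      (ModularGroup.S * ModularGroup.T) (ModularGroup.S * ModularGroup.T)
      ((ModularGroup.S * ModularGroup.T) • x)
    have h3 := dim_coc_par N (hpar φ) (g := ModularGroup.S * ModularGroup.T *
      (ModularGroup.S * ModularGroup.T) * (ModularGroup.S * ModularGroup.T)) (x := x)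
      (by rw [mul_smul, mul_smul]; exact dim_ST_smul N x) dim_trace_ST_cube
    rw [h1, h2] at h3
    linear_combination h3
  · -- orbit sums
    intro φ
    funext x
    rw [dim_P_apply]
    simp only [Pi.sub_apply, Pi.zero_apply, dim_cocL_apply]
    have h1 : ∀ j : ℕ, dim_coc (φ : Additive (Gamma0 N) →+ ℂ) (ModularGroup.S * ModularGroup.T)
        (ModularGroup.T ^ j • x) - dim_coc (φ : Additive (Gamma0 N) →+ ℂ) ModularGroup.S
        (ModularGroup.T ^ j • x) =
        (dim_coc (φ : Additive (Gamma0 N) →+ ℂ) ModularGroup.S (ModularGroup.T ^ (j + 1) • x) -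
          dim_coc (φ : Additive (Gamma0 N) →+ ℂ) ModularGroup.S (ModularGroup.T ^ j • x)) +
        dim_coc (φ : Additive (Gamma0 N) →+ ℂ) ModularGroup.T (ModularGroup.T ^ j • x) := by
      intro j
      rw [dim_coc_mul, pow_succ', mul_smul]
      ring
    simp only [h1, sum_add_distrib]
    rw [Finset.sum_range_sub
      (fun j => dim_coc (φ : Additive (Gamma0 N) →+ ℂ) ModularGroup.S (ModularGroup.T ^ j • x)),
      ← dim_coc_pow, dim_T_pow_smul, pow_zero, one_smul, sub_self, zero_add]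
    exact dim_coc_par N (hpar φ) (dim_T_pow_smul N x) (dim_trace_T_pow N)
  · -- injectivity modulo coboundaries
    intro φ m hS hU
    set d : SL(2, ℤ) → (SL(2, ℤ) ⧸ Gamma0 N) → ℂ :=
      fun g x => dim_coc (φ : Additive (Gamma0 N) →+ ℂ) g x - (m x - m (g • x)) with hd
    have hdmul : ∀ g h x, d (g * h) x = d g (h • x) + d h x := by
      intro g h x
      simp only [hd, dim_coc_mul, mul_smul]
      ring
    have hdS : ∀ x, d ModularGroup.S x = 0 := by
      intro x
      have := hS x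
      rw [dim_cocL_apply] at this
      simp only [hd, this, sub_self]
    have hdU : ∀ x, d (ModularGroup.S * ModularGroup.T) x = 0 := by
      intro x
      have := hU x
      rw [dim_cocL_apply] at this
      simp only [hd, this, sub_self]
    have hdT : ∀ x, d ModularGroup.T x = 0 := by
      intro x
      have := hdmul ModularGroup.S ModularGroup.T x
      rw [hdU, hdS, zero_add] at this
      exact this.symm
    have hzero := dim_cocycle_eq_zero d hdmul ModularGroup.S ModularGroup.T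
      SpecialLinearGroup.SL2Z_generators hdS hdT
    apply Subtype.ext
    apply AddMonoidHom.ext
    intro a
    have h1 := dim_coc_base (φ : Additive (Gamma0 N) →+ ℂ) (Additive.toMul a)
    have h2 := hzero ((Additive.toMul a : Gamma0 N) : SL(2, ℤ))
      ((1 : SL(2, ℤ)) : SL(2, ℤ) ⧸ Gamma0 N)
    have hfix : ((Additive.toMul a : Gamma0 N) : SL(2, ℤ)) •
        (((1 : SL(2, ℤ)) : SL(2, ℤ) ⧸ Gamma0 N)) = ((1 : SL(2, ℤ)) : SL(2, ℤ) ⧸ Gamma0 N) := by
      change ((((Additive.toMul a : Gamma0 N) : SL(2, ℤ)) * 1 : SL(2, ℤ)) :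
        SL(2, ℤ) ⧸ Gamma0 N) = _
      rw [QuotientGroup.eq]
      simp [(Additive.toMul a : Gamma0 N).2]
    simp only [hd, hfix, sub_self, sub_zero] at h2
    rw [h2] at h1
    simpa using h1.symm

/-- **(DIM)** -/
theorem dim [NeZero N] : DimStatement N := by
  obtain ⟨hfin, h⟩ := dimOrbit N
  refine ⟨hfin, ?_⟩
  have h1 : Nat.card (SL(2, ℤ) ⧸ Gamma0 N) = ModularCurve.dedekindPsi N :=
    Comb.comb_cosetCard N
  have h2 : 2 * Nat.card (MulAction.orbitRel.Quotient (Subgroup.zpowers ModularGroup.S)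
      (SL(2, ℤ) ⧸ Gamma0 N)) = ModularCurve.dedekindPsi N + ModularCurve.nuTwo N :=
    Comb.comb_orbitsS N
  have h3 : 3 * Nat.card (MulAction.orbitRel.Quotient
      (Subgroup.zpowers (ModularGroup.S * ModularGroup.T)) (SL(2, ℤ) ⧸ Gamma0 N)) =
      ModularCurve.dedekindPsi N + 2 * ModularCurve.nuThree N :=
    Comb.comb_orbitsST N
  have h4 : Nat.card (MulAction.orbitRel.Quotient (Subgroup.zpowers ModularGroup.T)
      (SL(2, ℤ) ⧸ Gamma0 N)) = ModularCurve.cuspCount N :=
    Comb.comb_orbitsT N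
  rw [h1, h4] at h
  have h' : (finrank ℂ (parabolicHoms ℂ (Gamma0 N) ℂ) : ℚ)
      + (Nat.card (MulAction.orbitRel.Quotient (Subgroup.zpowers ModularGroup.S)
        (SL(2, ℤ) ⧸ Gamma0 N)) : ℚ)
      + (Nat.card (MulAction.orbitRel.Quotient
        (Subgroup.zpowers (ModularGroup.S * ModularGroup.T)) (SL(2, ℤ) ⧸ Gamma0 N)) : ℚ)
      + (ModularCurve.cuspCount N : ℚ) ≤ (ModularCurve.dedekindPsi N : ℚ) + 2 := by
    exact_mod_cast h
  have h2' : (2 : ℚ) * (Nat.card (MulAction.orbitRel.Quotient (Subgroup.zpowers ModularGroup.S)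
      (SL(2, ℤ) ⧸ Gamma0 N)) : ℚ) = (ModularCurve.dedekindPsi N : ℚ) + ModularCurve.nuTwo N := by
    exact_mod_cast h2
  have h3' : (3 : ℚ) * (Nat.card (MulAction.orbitRel.Quotient
      (Subgroup.zpowers (ModularGroup.S * ModularGroup.T)) (SL(2, ℤ) ⧸ Gamma0 N)) : ℚ) =
      (ModularCurve.dedekindPsi N : ℚ) + 2 * ModularCurve.nuThree N := by
    exact_mod_cast h3
  unfold ModularCurve.genusFormula
  linarith

end Concrete

end Fermat.Agent.S21
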