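import Mathlib
import Fermat.Agent.S21.Defs

/-!
# S21: the final assembly (from the packages of `S21/Defs.lean`)
-/

set_option autoImplicit false

noncomputable section

namespace Fermat.Agent.S21

open UpperHalfPlane CongruenceSubgroup ModularCurve ModularCurve.Period
open scoped MatrixGroups

/-- The explicit formula for `periodHomPair`. -/
theorem final_periodHomPair_apply (N : ℕ) (hL : ExistsPeriodMapLinear N)
    (f g : CuspForm (Gamma0 N) 2) :
    periodHomPair N (f, g)
      = (periodMap N f + charInvolution N ℂ ℂ (periodMap N f))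
        + (periodMap N g - charInvolution N ℂ ℂ (periodMap N g)) := by
  obtain ⟨pml, hpml, hdef⟩ := periodHomPair_def N hL
  rw [hdef]
  simp only [LinearMap.coprod_apply, LinearMap.coe_comp, Function.comp_apply,
    LinearMap.add_apply, LinearMap.sub_apply, LinearMap.id_coe, id_eq, hpml]

theorem final (N : ℕ) [NeZero N] : FinalStatement N := by
  intro _hP hL hPar hInj hDim hfin hS20
  have hinj : Function.Injective (periodHomPair N) := by
    rw [injective_iff_map_eq_zero]
    rintro ⟨f, g⟩ h
    rw [final_periodHomPair_apply N hL] at h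
    obtain ⟨hf, hg⟩ := hInj f g h
    rw [hf, hg]
    rfl
  refine ⟨hinj, ?_⟩
  have hle : LinearMap.range (periodHomPair N) ≤ parabolicHoms ℂ (Gamma0 N) ℂ := by
    rintro _ ⟨⟨f, g⟩, rfl⟩
    rw [final_periodHomPair_apply N hL]
    refine Submodule.add_mem _ (Submodule.add_mem _ (hPar f) ?_)
      (Submodule.sub_mem _ (hPar g) ?_)
    · exact charInvolution_mem_parabolicHoms N ℂ ℂ (hPar f)
    · exact charInvolution_mem_parabolicHoms N ℂ ℂ (hPar g)
  obtain ⟨hfinPar, hdim⟩ := hDim
  have hr : Module.finrank ℂ (LinearMap.range (periodHomPair N))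
      = 2 * Module.finrank ℂ (CuspForm (Gamma0 N) 2) := by
    rw [LinearMap.finrank_range_of_inj hinj, Module.finrank_prod]
    ring
  have hq : (Module.finrank ℂ (parabolicHoms ℂ (Gamma0 N) ℂ) : ℚ)
      ≤ (Module.finrank ℂ (LinearMap.range (periodHomPair N)) : ℚ) := by
    rw [hr]
    push_cast
    rw [hS20]
    exact hdim
  have hn : Module.finrank ℂ (parabolicHoms ℂ (Gamma0 N) ℂ)
      ≤ Module.finrank ℂ (LinearMap.range (periodHomPair N)) := by
    exact_mod_cast hq
  exact Submodule.eq_of_le_of_finrank_le hle hn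

end Fermat.Agent.S21
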