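/-
S21 package (HARM) (helper7): the maximum principle on `Γ₀(N) \ ℍ ∪ cusps`.
-/
import Mathlib
import Fermat.Agent.S21.Defs

set_option autoImplicit false

namespace Fermat.Agent.S21

open UpperHalfPlane hiding I
open Complex Filter Function CongruenceSubgroup Metric
open scoped Topology Manifold MatrixGroups Real

local notation "𝕢" => Periodic.qParam

/-! ### Maximum principle for the real part of a holomorphic function -/

/-- If `exp ∘ f` is constant on a connected open set, so is `f`. -/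
lemma harm_const_of_exp_const {f : ℂ → ℂ} {U : Set ℂ} (hU : IsOpen U) (hUc : IsPreconnected U)
    (hf : DifferentiableOn ℂ f U) {c : ℂ} (h : ∀ z ∈ U, Complex.exp (f z) = c) {z w : ℂ}
    (hz : z ∈ U) (hw : w ∈ U) : f z = f w := by
  refine hU.is_const_of_deriv_eq_zero hUc hf ?_ hz hw
  intro x hx
  have hfx : DifferentiableAt ℂ f x := hf.differentiableAt (hU.mem_nhds hx)
  have h1 : HasDerivAt (fun y => Complex.exp (f y)) (Complex.exp (f x) * deriv f x) x :=
    hfx.hasDerivAt.cexp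
  have h2 : HasDerivAt (fun y => Complex.exp (f y)) 0 x := by
    have : (fun y => Complex.exp (f y)) =ᶠ[𝓝 x] fun _ => c := by
      filter_upwards [hU.mem_nhds hx] with y hy using h y hy
    exact (hasDerivAt_const x c).congr_of_eventuallyEq this
  have h3 := h1.unique h2
  rcases mul_eq_zero.mp h3 with h4 | h4
  · exact absurd h4 (Complex.exp_ne_zero _)
  · simpa using h4

/-- If the real part of a holomorphic function on a connected open set has a maximum, the
function is constant. -/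
lemma harm_const_of_isMaxOn_re {f : ℂ → ℂ} {U : Set ℂ} (hU : IsOpen U) (hUc : IsPreconnected U)
    (hf : DifferentiableOn ℂ f U) {c : ℂ} (hc : c ∈ U) (hmax : ∀ z ∈ U, (f z).re ≤ (f c).re)
    {z w : ℂ} (hz : z ∈ U) (hw : w ∈ U) : f z = f w := by
  have hF : DifferentiableOn ℂ (fun y => Complex.exp (f y)) U := hf.cexp
  have hmax' : IsMaxOn (norm ∘ fun y => Complex.exp (f y)) U c := by
    intro y hy
    simp only [Set.mem_ofPred_eq, Function.comp_apply, Complex.norm_exp]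
    exact Real.exp_le_exp.mpr (hmax y hy)
  have h := Complex.eqOn_of_isPreconnected_of_isMaxOn_norm hUc hU hF hc hmax'
  exact harm_const_of_exp_const hU hUc hf (c := Complex.exp (f c)) (fun y hy => h hy) hz hw

/-! ### Holomorphic functions on `ℍ` -/

lemma harm_mdiff_of_differentiableAt {G : ℍ → ℂ}
    (hG : ∀ τ : ℍ, DifferentiableAt ℂ (G ∘ ofComplex) ↑τ) : MDiff G := by
  rw [UpperHalfPlane.mdifferentiable_iff]
  intro w hw
  exact (hG ⟨w, hw⟩).differentiableWithinAt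

lemma harm_mdiff_smul (δ : SL(2, ℤ)) : MDiff (fun τ : ℍ => δ • τ) := by
  have h : 0 < ((δ : GL (Fin 2) ℝ)).det.val := by simp
  exact mdifferentiable_smul h

lemma harm_mdiff_comp_smul {G : ℍ → ℂ} (hG : MDiff G) (δ : SL(2, ℤ)) :
    MDiff (fun w : ℍ => G (δ • w)) :=
  hG.comp (harm_mdiff_smul δ)

/-- A holomorphic function on `ℍ` with constant real part is constant. -/
lemma harm_const_of_re_const {D : ℍ → ℂ} (hD : MDiff D)
    (h : ∀ z w : ℍ, (D z).re = (D w).re) (z w : ℍ) : D z = D w := by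
  have hd : DifferentiableOn ℂ (D ∘ ofComplex) {y : ℂ | 0 < y.im} :=
    UpperHalfPlane.mdifferentiable_iff.mp hD
  have hpc : IsPreconnected {y : ℂ | 0 < y.im} := (convex_halfSpace_im_gt 0).isPreconnected
  have key := harm_const_of_isMaxOn_re isOpen_upperHalfPlaneSet hpc hd
    (c := (z : ℂ)) z.im_pos (fun y hy => by
      have hy' : 0 < y.im := hy
      simp only [Function.comp_apply, ofComplex_apply_of_im_pos hy', ofComplex_apply]
      exact (h _ _).le) (z := (z : ℂ)) (w := (w : ℂ)) z.im_pos w.im_pos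
  simpa using key

/-! ### Periodicity of the translates -/

lemma harm_Gamma_le_Gamma0 (N : ℕ) : CongruenceSubgroup.Gamma N ≤ Gamma0 N := by
  intro γ hγ
  rw [Gamma_mem] at hγ
  rw [Gamma0_mem]
  exact hγ.2.2.1

lemma harm_conj_T_pow_mem (N : ℕ) (δ : SL(2, ℤ)) :
    δ * ModularGroup.T ^ (N : ℤ) * δ⁻¹ ∈ Gamma0 N := by
  apply harm_Gamma_le_Gamma0
  have h : ModularGroup.T ^ (N : ℤ) ∈ CongruenceSubgroup.Gamma N := by
    have := ModularGroup_T_pow_mem_Gamma (N : ℤ) (N : ℤ) dvd_rfl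
    simpa using this
  exact Subgroup.Normal.conj_mem (CongruenceSubgroup.Gamma_normal (N := N)) _ h δ

lemma harm_T_pow_smul (N : ℕ) (w : ℍ) : (ModularGroup.T ^ (N : ℤ)) • w = ((N : ℝ) +ᵥ w) := by
  ext
  rw [ModularGroup.coe_T_zpow_smul_eq, UpperHalfPlane.coe_vadd]
  push_cast
  ring

lemma harm_tendsto_vadd (x : ℝ) : Tendsto (fun w : ℍ => x +ᵥ w) atImInfty atImInfty := by
  rw [atImInfty, tendsto_comap_iff]
  have : (UpperHalfPlane.im ∘ fun w : ℍ => x +ᵥ w) = UpperHalfPlane.im := by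
    funext w
    simp [UpperHalfPlane.vadd_im]
  rw [this]
  exact tendsto_comap

section Translate

variable {N : ℕ} {G : ℍ → ℂ}

lemma harm_translate_re_periodic
    (hinv : ∀ γ ∈ Gamma0 N, ∀ z : ℍ, (G (γ • z)).re = (G z).re) (δ : SL(2, ℤ)) (w : ℍ) :
    (G (δ • ((N : ℝ) +ᵥ w))).re = (G (δ • w)).re := by
  have e : δ • ((N : ℝ) +ᵥ w) = (δ * ModularGroup.T ^ (N : ℤ) * δ⁻¹) • (δ • w) := by
    rw [← harm_T_pow_smul, ← mul_smul, ← mul_smul]
    congr 1
    group
  rw [e]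
  exact hinv _ (harm_conj_T_pow_mem N δ) _

/-- The translates of `G` are `N`-periodic. -/
lemma harm_translate_periodic (hG : MDiff G)
    (hinv : ∀ γ ∈ Gamma0 N, ∀ z : ℍ, (G (γ • z)).re = (G z).re) (δ : SL(2, ℤ))
    (hlim : ∃ L : ℂ, Tendsto (fun w : ℍ => G (δ • w)) atImInfty (𝓝 L)) (w : ℍ) :
    G (δ • ((N : ℝ) +ᵥ w)) = G (δ • w) := by
  obtain ⟨L, hL⟩ := hlim
  have hg : MDiff (fun w : ℍ => G (δ • w)) := harm_mdiff_comp_smul hG δ
  have hg' : MDiff (fun w : ℍ => G (δ • ((N : ℝ) +ᵥ w))) := by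
    have := harm_mdiff_comp_smul hg (ModularGroup.T ^ (N : ℤ))
    simpa only [harm_T_pow_smul] using this
  have hD : MDiff (fun w : ℍ => G (δ • ((N : ℝ) +ᵥ w)) - G (δ • w)) := hg'.sub hg
  have hre : ∀ z w : ℍ, (G (δ • ((N : ℝ) +ᵥ z)) - G (δ • z)).re =
      (G (δ • ((N : ℝ) +ᵥ w)) - G (δ • w)).re := by
    intro z w
    rw [Complex.sub_re, Complex.sub_re, harm_translate_re_periodic hinv,
      harm_translate_re_periodic hinv, sub_self, sub_self]
  have hconst := harm_const_of_re_const hD hre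
  have hlim1 : Tendsto (fun w : ℍ => G (δ • ((N : ℝ) +ᵥ w))) atImInfty (𝓝 L) :=
    hL.comp (harm_tendsto_vadd (N : ℝ))
  have hlim2 : Tendsto (fun w : ℍ => G (δ • ((N : ℝ) +ᵥ w)) - G (δ • w)) atImInfty (𝓝 (L - L)) :=
    hlim1.sub hL
  have hlim3 : Tendsto (fun w : ℍ => G (δ • ((N : ℝ) +ᵥ w)) - G (δ • w)) atImInfty
      (𝓝 (G (δ • ((N : ℝ) +ᵥ w)) - G (δ • w))) := by
    have : (fun z : ℍ => G (δ • ((N : ℝ) +ᵥ z)) - G (δ • z)) =
        fun _ => G (δ • ((N : ℝ) +ᵥ w)) - G (δ • w) := by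
      funext z
      exact hconst z w
    rw [this]
    exact tendsto_const_nhds
  have := tendsto_nhds_unique hlim3 hlim2
  rw [sub_self] at this
  exact sub_eq_zero.mp this

lemma harm_periodic_comp_ofComplex {g : ℍ → ℂ} (hg : ∀ w : ℍ, g ((N : ℝ) +ᵥ w) = g w) :
    Periodic (g ∘ ofComplex) (N : ℝ) := by
  intro w
  by_cases hw : 0 < w.im
  · have hw' : 0 < (w + (N : ℝ)).im := by simpa using hw
    simp only [Function.comp_apply, ofComplex_apply_of_im_pos hw',
      ofComplex_apply_of_im_pos hw]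
    rw [← hg ⟨w, hw⟩]
    congr 1
    ext
    simp [add_comm]
  · have hw0 : w.im ≤ 0 := not_lt.mp hw
    have hw' : (w + ((N : ℝ) : ℂ)).im ≤ 0 := by simpa using hw0
    show g (ofComplex (w + ((N : ℝ) : ℂ))) = g (ofComplex w)
    rw [ofComplex_apply_of_im_nonpos hw', ofComplex_apply_of_im_nonpos hw0]

end Translate

/-! ### Reduction to the fundamental domain -/

/-- Every point of `ℍ` is `Γ₀(N)`-equivalent to `δ w` with `Im w ≥ 1/2` and `δ` one of the
finitely many inverse coset representatives. -/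
lemma harm_exists_rep (N : ℕ) {G : ℍ → ℂ}
    (hinv : ∀ γ ∈ Gamma0 N, ∀ z : ℍ, (G (γ • z)).re = (G z).re) (z : ℍ) :
    ∃ (x : SL(2, ℤ) ⧸ Gamma0 N) (w : ℍ), 1 / 2 ≤ w.im ∧
      (G z).re = (G ((Quotient.out x : SL(2, ℤ))⁻¹ • w)).re := by
  obtain ⟨γ, hγ⟩ := ModularGroup.exists_one_half_le_im_smul z
  obtain ⟨h, hh⟩ := QuotientGroup.mk_out_eq_mul (Gamma0 N) γ
  refine ⟨((γ : SL(2, ℤ)) : SL(2, ℤ) ⧸ Gamma0 N), γ • z, hγ, ?_⟩
  rw [hh, mul_inv_rev, mul_smul, inv_smul_smul]
  exact (hinv _ (inv_mem h.2) z).symm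

lemma harm_norm_qParam_le {N : ℕ} (hN : 0 < (N : ℝ)) {w : ℍ} (hw : 1 / 2 ≤ w.im) :
    ‖𝕢 (N : ℝ) (w : ℂ)‖ ≤ Real.exp (-π / N) := by
  rw [Periodic.norm_qParam]
  apply Real.exp_le_exp.mpr
  have hpi := Real.pi_pos
  rw [div_le_div_iff_of_pos_right hN]
  have : (w : ℂ).im = w.im := rfl
  rw [this]
  nlinarith

/-! ### The maximum principle -/

/-- (HARM) -/
theorem harm (N : ℕ) [NeZero N] : HarmStatement N := by
  intro G hGd hinv hlim
  have hG : MDiff G := harm_mdiff_of_differentiableAt hGd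
  have hN : (0 : ℝ) < (N : ℝ) := by
    have := NeZero.pos N
    exact_mod_cast this
  -- the translates and their cusp functions
  set g : (SL(2, ℤ) ⧸ Gamma0 N) → ℍ → ℂ :=
    fun x w => G ((Quotient.out x : SL(2, ℤ))⁻¹ • w) with hg_def
  have hgmd : ∀ x, MDiff (g x) := fun x => harm_mdiff_comp_smul hG _
  have hgper : ∀ x, Periodic (g x ∘ ofComplex) (N : ℝ) := fun x =>
    harm_periodic_comp_ofComplex (fun w => harm_translate_periodic hG hinv _ (hlim _) w)
  have hgbdd : ∀ x, IsBoundedAtImInfty (g x) := by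
    intro x
    obtain ⟨L, hL⟩ := hlim (Quotient.out x : SL(2, ℤ))⁻¹
    exact hL.isBigO_one ℝ
  set c : (SL(2, ℤ) ⧸ Gamma0 N) → ℂ → ℂ := fun x => cuspFunction (N : ℝ) (g x) with hc_def
  have hcd : ∀ x, DifferentiableOn ℂ (c x) (ball 0 1) := fun x =>
    differentiableOn_cuspFunction_ball hN (hgper x) (hgmd x) (hgbdd x)
  have hceq : ∀ x (w : ℍ), c x (𝕢 (N : ℝ) (w : ℂ)) = g x w := fun x w =>
    eq_cuspFunction w hN.ne' (hgper x)
  -- the compact disc
  set r : ℝ := Real.exp (-π / N) with hr_def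
  have hr0 : 0 ≤ r := (Real.exp_pos _).le
  have hr1 : r < 1 := by
    rw [hr_def, Real.exp_lt_one_iff]
    exact div_neg_of_neg_of_pos (neg_lt_zero.mpr Real.pi_pos) hN
  have hKsub : closedBall (0 : ℂ) r ⊆ ball 0 1 := closedBall_subset_ball hr1
  have hmaxx : ∀ x, ∃ q ∈ closedBall (0 : ℂ) r,
      ∀ q' ∈ closedBall (0 : ℂ) r, (c x q').re ≤ (c x q).re := by
    intro x
    have hcont : ContinuousOn (fun q => (c x q).re) (closedBall (0 : ℂ) r) :=
      Complex.continuous_re.comp_continuousOn ((hcd x).continuousOn.mono hKsub)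
    obtain ⟨q, hq, hqmax⟩ := (isCompact_closedBall (0 : ℂ) r).exists_isMaxOn
      (nonempty_closedBall.mpr hr0) hcont
    exact ⟨q, hq, fun q' hq' => hqmax hq'⟩
  choose qx hqx hqxmax using hmaxx
  have : Finite (SL(2, ℤ) ⧸ Gamma0 N) := Subgroup.finite_quotient_of_finiteIndex
  obtain ⟨x₀, hx₀⟩ := Finite.exists_max (fun x => (c x (qx x)).re)
  -- the global bound
  have hbound : ∀ z : ℍ, (G z).re ≤ (c x₀ (qx x₀)).re := by
    intro z
    obtain ⟨x, w, hw, hzw⟩ := harm_exists_rep N hinv z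
    rw [hzw]
    have h1 : (g x w).re ≤ (c x (qx x)).re := by
      rw [← hceq x w]
      apply hqxmax x
      rw [mem_closedBall, dist_zero_right]
      exact harm_norm_qParam_le hN hw
    exact h1.trans (hx₀ x)
  have hbound' : ∀ q ∈ ball (0 : ℂ) 1, q ≠ 0 → (c x₀ q).re ≤ (c x₀ (qx x₀)).re := by
    intro q hq hq0
    have hq1 : ‖q‖ < 1 := by simpa using hq
    have him := Periodic.im_invQParam_pos_of_norm_lt_one hN hq1 hq0
    have e := hceq x₀ ⟨_, him⟩
    rw [UpperHalfPlane.coe_mk, Periodic.qParam_right_inv hN.ne' hq0] at e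
    rw [e]
    exact hbound _
  have hbound0 : ∀ q ∈ ball (0 : ℂ) 1, (c x₀ q).re ≤ (c x₀ (qx x₀)).re := by
    intro q hq
    by_cases hq0 : q = 0
    · subst hq0
      have hcont : ContinuousAt (fun q => (c x₀ q).re) 0 :=
        Complex.continuous_re.continuousAt.comp
          ((hcd x₀).differentiableAt (ball_mem_nhds 0 one_pos)).continuousAt
      have ht : Tendsto (fun q => (c x₀ q).re) (𝓝[≠] (0 : ℂ)) (𝓝 (c x₀ 0).re) :=
        hcont.tendsto.mono_left nhdsWithin_le_nhds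
      refine le_of_tendsto ht ?_
      have h1 : ∀ᶠ q in 𝓝[≠] (0 : ℂ), q ∈ ball (0 : ℂ) 1 :=
        eventually_nhdsWithin_of_eventually_nhds (ball_mem_nhds 0 one_pos)
      have h2 : ∀ᶠ q in 𝓝[≠] (0 : ℂ), q ≠ 0 := eventually_mem_nhdsWithin
      filter_upwards [h1, h2] with q hq hq0
      exact hbound' q hq hq0
    · exact hbound' q hq hq0
  -- the cusp function of the winning translate is constant
  have hconst : ∀ q ∈ ball (0 : ℂ) 1, ∀ q' ∈ ball (0 : ℂ) 1, c x₀ q = c x₀ q' :=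
    fun q hq q' hq' => harm_const_of_isMaxOn_re isOpen_ball (convex_ball 0 1).isPreconnected
      (hcd x₀) (hKsub (hqx x₀)) hbound0 hq hq'
  have hgconst : ∀ w w' : ℍ, g x₀ w = g x₀ w' := by
    intro w w'
    rw [← hceq x₀ w, ← hceq x₀ w']
    apply hconst
    · simpa using Periodic.norm_qParam_lt_one hN w.im_pos
    · simpa using Periodic.norm_qParam_lt_one hN w'.im_pos
  intro z w
  have hz : G z = g x₀ ((Quotient.out x₀ : SL(2, ℤ)) • z) := by
    simp only [hg_def, inv_smul_smul]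
  have hw : G w = g x₀ ((Quotient.out x₀ : SL(2, ℤ)) • w) := by
    simp only [hg_def, inv_smul_smul]
  rw [hz, hw]
  exact hgconst _ _

end Fermat.Agent.S21
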