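import Mathlib
import Fermat.Agent.S21.Defs

/-!
# S21 / (INJ): injectivity of `(f, g) ↦ (1 + ι) P f + (1 - ι) P g`

From (PRIM), (PER) and the maximum principle (HARM), applied to
`G₁ = F_a + F_b^*`, `G₂ = -i (F_a - F_b^*)`, where `F_a = F_f + F_g`, `F_b = F_f - F_g` and
`F^*(z) = conj (F (-conj z))`.
-/

set_option autoImplicit false

noncomputable section

namespace Fermat.Agent.S21

open UpperHalfPlane CongruenceSubgroup ModularCurve ModularCurve.Period Filter Topology
open scoped MatrixGroups ComplexConjugate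

/-- The reflection `z ↦ -conj z` of the upper half plane. -/
def inj_refl (z : ℍ) : ℍ := ⟨-conj (z : ℂ), by simpa using z.im_pos⟩

@[simp] theorem inj_refl_coe (z : ℍ) : ((inj_refl z : ℍ) : ℂ) = -conj (z : ℂ) := rfl

@[simp] theorem inj_refl_im (z : ℍ) : (inj_refl z).im = z.im := by
  show (-conj (z : ℂ)).im = (z : ℂ).im
  simp

@[simp] theorem inj_refl_refl (z : ℍ) : inj_refl (inj_refl z) = z := by
  apply UpperHalfPlane.ext
  simp

theorem inj_tendsto_refl : Tendsto inj_refl atImInfty atImInfty := by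
  rw [atImInfty, tendsto_comap_iff]
  have : UpperHalfPlane.im ∘ inj_refl = UpperHalfPlane.im := by
    funext z
    simp
  rw [this]
  exact tendsto_comap

/-- Conjugation by `diag(1,-1)` corresponds to the reflection. -/
theorem inj_jConj_smul (γ : SL(2, ℤ)) (z : ℍ) :
    (jConjSL γ) • (inj_refl z) = inj_refl (γ • z) := by
  apply UpperHalfPlane.ext
  rw [coe_specialLinearGroup_apply, inj_refl_coe, inj_refl_coe, coe_specialLinearGroup_apply]
  simp only [jConjSL_coe, jConjMat_apply_zero_zero, jConjMat_apply_zero_one,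
    jConjMat_apply_one_zero, jConjMat_apply_one_one, map_div₀, map_add, map_mul,
    algebraMap_int_eq, Int.coe_castRingHom, Int.cast_neg, Complex.ofReal_neg,
    Complex.ofReal_intCast, map_intCast]
  rw [← neg_div]
  congr 1 <;> ring

/-- `F^*(z) = conj (F (-conj z))`. -/
def inj_star (F : ℍ → ℂ) : ℍ → ℂ := fun z => conj (F (inj_refl z))

theorem inj_star_differentiableAt {F : ℍ → ℂ}
    (hF : ∀ τ : ℍ, DifferentiableAt ℂ (F ∘ ofComplex) ↑τ) (τ : ℍ) :
    DifferentiableAt ℂ (inj_star F ∘ ofComplex) ↑τ := by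
  have h1 : DifferentiableAt ℂ (fun u : ℂ => (F ∘ ofComplex) (-u)) (conj (τ : ℂ)) := by
    have := hF (inj_refl τ)
    rw [inj_refl_coe] at this
    exact differentiableAt_comp_neg.mpr this
  have h2 := h1.conj_conj
  rw [Complex.conj_conj] at h2
  refine h2.congr_of_eventuallyEq ?_
  have hopen : {w : ℂ | 0 < w.im} ∈ 𝓝 (τ : ℂ) :=
    (Complex.continuous_im.isOpen_preimage _ isOpen_Ioi).mem_nhds τ.im_pos
  filter_upwards [hopen] with w hw
  have hw' : 0 < (-conj w).im := by simpa using hw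
  simp only [Function.comp_apply, inj_star]
  rw [ofComplex_apply_of_im_pos hw, ofComplex_apply_of_im_pos hw']
  rfl

/-- (INJ) from (PRIM), (PER) and (HARM). -/
theorem inj (N : ℕ) [NeZero N] (hprim : PrimStatement N) (hper : PeriodEqStatement N)
    (hharm : HarmStatement N) : InjStatement N := by
  intro f g h
  obtain ⟨Ff, hFf⟩ := hprim f
  obtain ⟨Fg, hFg⟩ := hprim g
  -- the invariance
  have key : ∀ γ ∈ Gamma0 N, ∀ z : ℍ,
      (Ff (γ • z) - Ff z) + (Fg (γ • z) - Fg z)
        + ((Ff (inj_refl (γ • z)) - Ff (inj_refl z))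
          - (Fg (inj_refl (γ • z)) - Fg (inj_refl z))) = 0 := by
    intro γ hγ z
    have h1 := DFunLike.congr_fun h (Additive.ofMul (⟨γ, hγ⟩ : Gamma0 N))
    simp only [AddMonoidHom.add_apply, AddMonoidHom.sub_apply, charInvolution_apply,
      toMul_ofMul, AddMonoidHom.zero_apply] at h1
    rw [hper f Ff hFf ⟨γ, hγ⟩ z, hper g Fg hFg ⟨γ, hγ⟩ z,
      hper f Ff hFf (jConjGamma0 N ⟨γ, hγ⟩) (inj_refl z),
      hper g Fg hFg (jConjGamma0 N ⟨γ, hγ⟩) (inj_refl z)] at h1
    simp only [jConjGamma0_coe, inj_jConj_smul] at h1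
    linear_combination h1
  -- the two primitives
  set Fa : ℍ → ℂ := fun z => Ff z + Fg z with hFa
  set Fb : ℍ → ℂ := fun z => Ff z - Fg z with hFb
  have hFa_der : ∀ τ : ℍ, HasDerivAt (Fa ∘ ofComplex) (f τ + g τ) ↑τ :=
    fun τ => (hFf.1 τ).add (hFg.1 τ)
  have hFb_der : ∀ τ : ℍ, HasDerivAt (Fb ∘ ofComplex) (f τ - g τ) ↑τ :=
    fun τ => (hFf.1 τ).sub (hFg.1 τ)
  have hFa_lim : ∀ δ : SL(2, ℤ), ∃ L : ℂ,
      Tendsto (fun w : ℍ => Fa (δ • w)) atImInfty (𝓝 L) := by
    intro δ
    obtain ⟨L1, h1⟩ := hFf.2.2.2 δ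
    obtain ⟨L2, h2⟩ := hFg.2.2.2 δ
    exact ⟨L1 + L2, h1.add h2⟩
  have hFb_lim : ∀ δ : SL(2, ℤ), ∃ L : ℂ,
      Tendsto (fun w : ℍ => Fb (δ • w)) atImInfty (𝓝 L) := by
    intro δ
    obtain ⟨L1, h1⟩ := hFf.2.2.2 δ
    obtain ⟨L2, h2⟩ := hFg.2.2.2 δ
    exact ⟨L1 - L2, h1.sub h2⟩
  have hFbs_lim : ∀ δ : SL(2, ℤ), ∃ L : ℂ,
      Tendsto (fun w : ℍ => inj_star Fb (δ • w)) atImInfty (𝓝 L) := by
    intro δ
    obtain ⟨L, hL⟩ := hFb_lim (jConjSL δ)
    refine ⟨conj L, ?_⟩
    have h1 : (fun w : ℍ => inj_star Fb (δ • w))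
        = fun w : ℍ => conj (Fb ((jConjSL δ) • (inj_refl w))) := by
      funext w
      simp only [inj_star, inj_jConj_smul]
    rw [h1]
    exact (Complex.continuous_conj.tendsto L).comp (hL.comp inj_tendsto_refl)
  have hFbs_diff : ∀ τ : ℍ, DifferentiableAt ℂ (inj_star Fb ∘ ofComplex) ↑τ :=
    inj_star_differentiableAt fun τ => (hFb_der τ).differentiableAt
  -- real and imaginary parts of the invariance
  have key_re : ∀ γ ∈ Gamma0 N, ∀ z : ℍ,
      (Fa (γ • z)).re + (Fb (inj_refl (γ • z))).re = (Fa z).re + (Fb (inj_refl z)).re := by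
    intro γ hγ z
    have h1 := congrArg Complex.re (key γ hγ z)
    simp only [Complex.add_re, Complex.sub_re, Complex.zero_re] at h1
    simp only [hFa, hFb, Complex.add_re, Complex.sub_re]
    linarith
  have key_im : ∀ γ ∈ Gamma0 N, ∀ z : ℍ,
      (Fa (γ • z)).im + (Fb (inj_refl (γ • z))).im = (Fa z).im + (Fb (inj_refl z)).im := by
    intro γ hγ z
    have h1 := congrArg Complex.im (key γ hγ z)
    simp only [Complex.add_im, Complex.sub_im, Complex.zero_im] at h1
    simp only [hFa, hFb, Complex.add_im, Complex.sub_im]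
    linarith
  -- the two holomorphic functions with invariant real part
  have hG1 : ∀ z w : ℍ, Fa z + inj_star Fb z = Fa w + inj_star Fb w := by
    refine hharm (fun z => Fa z + inj_star Fb z) ?_ ?_ ?_
    · intro τ
      exact ((hFa_der τ).differentiableAt).add (hFbs_diff τ)
    · intro γ hγ z
      simp only [inj_star, Complex.add_re, Complex.conj_re]
      exact key_re γ hγ z
    · intro δ
      obtain ⟨L1, h1⟩ := hFa_lim δ
      obtain ⟨L2, h2⟩ := hFbs_lim δ
      exact ⟨L1 + L2, h1.add h2⟩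
  have hG2 : ∀ z w : ℍ, -Complex.I * (Fa z - inj_star Fb z)
      = -Complex.I * (Fa w - inj_star Fb w) := by
    refine hharm (fun z => -Complex.I * (Fa z - inj_star Fb z)) ?_ ?_ ?_
    · intro τ
      exact (((hFa_der τ).differentiableAt).sub (hFbs_diff τ)).const_mul _
    · intro γ hγ z
      simp only [inj_star, Complex.mul_re, Complex.neg_re, Complex.neg_im, Complex.I_re,
        Complex.I_im, Complex.sub_re, Complex.sub_im, Complex.conj_re, Complex.conj_im]
      have := key_im γ hγ z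
      linarith
    · intro δ
      obtain ⟨L1, h1⟩ := hFa_lim δ
      obtain ⟨L2, h2⟩ := hFbs_lim δ
      exact ⟨-Complex.I * (L1 - L2), (h1.sub h2).const_mul _⟩
  -- hence both primitives are constant
  have hI : ∀ x : ℂ, Complex.I * (-Complex.I * x) = x := by
    intro x
    rw [← mul_assoc, mul_neg, Complex.I_mul_I, neg_neg, one_mul]
  have hFa_const : ∀ z w : ℍ, Fa z = Fa w := by
    intro z w
    have h1 := hG1 z w
    have h2 := congrArg (fun x => Complex.I * x) (hG2 z w)
    simp only [hI] at h2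
    linear_combination (h1 + h2) / 2
  have hFbs_const : ∀ z w : ℍ, inj_star Fb z = inj_star Fb w := by
    intro z w
    have h1 := hG1 z w
    have h2 := congrArg (fun x => Complex.I * x) (hG2 z w)
    simp only [hI] at h2
    linear_combination (h1 - h2) / 2
  have hFb_const : ∀ z w : ℍ, Fb z = Fb w := by
    intro z w
    have h1 := hFbs_const (inj_refl z) (inj_refl w)
    simp only [inj_star, inj_refl_refl] at h1
    exact (starRingEnd ℂ).injective h1
  -- so the derivatives vanish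
  have hsum : ∀ τ : ℍ, f τ + g τ = 0 := by
    intro τ
    have h1 : Fa ∘ ofComplex = fun _ => Fa τ := by
      funext w
      exact hFa_const _ _
    have h2 := hFa_der τ
    rw [h1] at h2
    exact h2.unique (hasDerivAt_const _ _)
  have hdiff : ∀ τ : ℍ, f τ - g τ = 0 := by
    intro τ
    have h1 : Fb ∘ ofComplex = fun _ => Fb τ := by
      funext w
      exact hFb_const _ _
    have h2 := hFb_der τ
    rw [h1] at h2
    exact h2.unique (hasDerivAt_const _ _)
  refine ⟨DFunLike.ext _ _ fun τ => ?_, DFunLike.ext _ _ fun τ => ?_⟩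
  · have h1 := hsum τ
    have h2 := hdiff τ
    show f τ = 0
    linear_combination (h1 + h2) / 2
  · have h1 := hsum τ
    have h2 := hdiff τ
    show g τ = 0
    linear_combination (h1 - h2) / 2

end Fermat.Agent.S21
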