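import Mathlib
import Fermat.Agent.S21.Defs

/-!
# S21 / (LIN): the period map is linear

From (PRIM) (existence of an equivariant primitive) and (PER) (the period map is computed by any
equivariant primitive): equivariant primitives are closed under `+` and `•`, hence
`periodMap N` is additive and homogeneous.
-/

set_option autoImplicit false

noncomputable section

namespace Fermat.Agent.S21

open UpperHalfPlane CongruenceSubgroup ModularCurve ModularCurve.Period Filter Topology
open scoped MatrixGroups

/-- The zero function is an equivariant primitive of the zero form. -/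
theorem lin_hasEquivariantPrimitive_zero (N : ℕ) :
    HasEquivariantPrimitive N (0 : CuspForm (Gamma0 N) 2) (fun _ => 0) := by
  refine ⟨fun τ => ?_, tendsto_const_nhds, fun γ => ⟨0, fun z => by simp⟩,
    fun δ => ⟨0, tendsto_const_nhds⟩⟩
  have h : ((fun _ : ℍ => (0 : ℂ)) ∘ ofComplex) = fun _ : ℂ => (0 : ℂ) := rfl
  rw [h]
  simpa using hasDerivAt_const (τ : ℂ) (0 : ℂ)

/-- Equivariant primitives are closed under addition. -/
theorem lin_hasEquivariantPrimitive_add (N : ℕ) {f g : CuspForm (Gamma0 N) 2} {F G : ℍ → ℂ}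
    (hF : HasEquivariantPrimitive N f F) (hG : HasEquivariantPrimitive N g G) :
    HasEquivariantPrimitive N (f + g) (F + G) := by
  obtain ⟨hF1, hF2, hF3, hF4⟩ := hF
  obtain ⟨hG1, hG2, hG3, hG4⟩ := hG
  refine ⟨fun τ => ?_, ?_, fun γ => ?_, fun δ => ?_⟩
  · have h := (hF1 τ).add (hG1 τ)
    have e : (F + G) ∘ ofComplex = F ∘ ofComplex + G ∘ ofComplex := rfl
    rw [e]
    simpa using h
  · have h := hF2.add hG2
    rw [add_zero] at h
    exact h
  · obtain ⟨c, hc⟩ := hF3 γ
    obtain ⟨d, hd⟩ := hG3 γ
    refine ⟨c + d, fun z => ?_⟩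
    simp only [Pi.add_apply]
    rw [← hc z, ← hd z]
    ring
  · obtain ⟨L, hL⟩ := hF4 δ
    obtain ⟨M, hM⟩ := hG4 δ
    exact ⟨L + M, hL.add hM⟩

/-- Equivariant primitives are closed under scalar multiplication. -/
theorem lin_hasEquivariantPrimitive_smul (N : ℕ) (c : ℂ) {f : CuspForm (Gamma0 N) 2}
    {F : ℍ → ℂ} (hF : HasEquivariantPrimitive N f F) :
    HasEquivariantPrimitive N (c • f) (c • F) := by
  obtain ⟨hF1, hF2, hF3, hF4⟩ := hF
  refine ⟨fun τ => ?_, ?_, fun γ => ?_, fun δ => ?_⟩
  · have h := (hF1 τ).const_mul c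
    have e : (c • F) ∘ ofComplex = fun w => c * (F ∘ ofComplex) w := rfl
    rw [e]
    simpa using h
  · have h := hF2.const_mul c
    rw [mul_zero] at h
    exact h
  · obtain ⟨d, hd⟩ := hF3 γ
    refine ⟨c * d, fun z => ?_⟩
    simp only [Pi.smul_apply, smul_eq_mul]
    rw [← hd z]
    ring
  · obtain ⟨L, hL⟩ := hF4 δ
    exact ⟨c * L, hL.const_mul c⟩

/-- The period map, evaluated through (PER) at the base point `I`. -/
theorem lin_periodMap_apply (N : ℕ) [NeZero N] (hper : PeriodEqStatement N)
    {f : CuspForm (Gamma0 N) 2} {F : ℍ → ℂ} (hF : HasEquivariantPrimitive N f F)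
    (γ : Additive (Gamma0 N)) :
    periodMap N f γ
      = F (((Additive.toMul γ : Gamma0 N) : SL(2, ℤ)) • UpperHalfPlane.I) - F UpperHalfPlane.I :=
  hper f F hF (Additive.toMul γ) UpperHalfPlane.I

/-- The period map is additive. -/
theorem lin_add (N : ℕ) [NeZero N] (hprim : PrimStatement N) (hper : PeriodEqStatement N)
    (f g : CuspForm (Gamma0 N) 2) :
    periodMap N (f + g) = periodMap N f + periodMap N g := by
  obtain ⟨F, hF⟩ := hprim f
  obtain ⟨G, hG⟩ := hprim g
  refine AddMonoidHom.ext fun γ => ?_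
  rw [AddMonoidHom.add_apply, lin_periodMap_apply N hper hF, lin_periodMap_apply N hper hG,
    lin_periodMap_apply N hper (lin_hasEquivariantPrimitive_add N hF hG)]
  simp only [Pi.add_apply]
  ring

/-- The period map is homogeneous. -/
theorem lin_smul (N : ℕ) [NeZero N] (hprim : PrimStatement N) (hper : PeriodEqStatement N)
    (c : ℂ) (f : CuspForm (Gamma0 N) 2) :
    periodMap N (c • f) = c • periodMap N f := by
  obtain ⟨F, hF⟩ := hprim f
  refine AddMonoidHom.ext fun γ => ?_
  rw [AddMonoidHom.smul_apply, lin_periodMap_apply N hper hF,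
    lin_periodMap_apply N hper (lin_hasEquivariantPrimitive_smul N c hF)]
  simp only [Pi.smul_apply, smul_eq_mul]
  ring

/-- The period map as a linear map. -/
def lin_periodMapLinear (N : ℕ) [NeZero N] (hprim : PrimStatement N)
    (hper : PeriodEqStatement N) :
    CuspForm (Gamma0 N) 2 →ₗ[ℂ] (Additive (Gamma0 N) →+ ℂ) where
  toFun := periodMap N
  map_add' := lin_add N hprim hper
  map_smul' := lin_smul N hprim hper

/-- **(LIN)** the period map is linear. -/
theorem lin (N : ℕ) [NeZero N] (hprim : PrimStatement N) (hper : PeriodEqStatement N) :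
    LinStatement N :=
  ⟨lin_periodMapLinear N hprim hper, fun _ => rfl⟩

end Fermat.Agent.S21
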