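import Mathlib
import Fermat.Agent.S21.Defs

/-!
# S21 / (PAR): the periods of a cusp form vanish on parabolic elements

An element `γ` of `SL(2,ℤ)` with `(tr γ)² = 4` is conjugate, by some `δ ∈ SL(2,ℤ)`, to an
element acting on `ℍ` as a translation `T ^ n`.  For an equivariant primitive `F` the constant
`F (γ z) - F z` is therefore `lim F (δ (w + n)) - F (δ w) = L - L = 0`.
-/

set_option autoImplicit false

noncomputable section

namespace Fermat.Agent.S21

open UpperHalfPlane CongruenceSubgroup ModularCurve ModularCurve.Period Filter Topology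
open scoped MatrixGroups

/-- The lower left entry of `δ⁻¹ γ δ`. -/
theorem par_conj_apply_one_zero (γ δ : SL(2, ℤ)) :
    (δ⁻¹ * γ * δ) 1 0
      = γ 1 0 * δ 0 0 ^ 2 + (γ 1 1 - γ 0 0) * δ 0 0 * δ 1 0 - γ 0 1 * δ 1 0 ^ 2 := by
  rw [Matrix.SpecialLinearGroup.SL2_inv_expl δ]
  simp only [Matrix.SpecialLinearGroup.coe_mul, Matrix.mul_apply, Fin.sum_univ_two]
  simp
  ring

/-- A parabolic element of `SL(2,ℤ)` is conjugate to an upper triangular one. -/
theorem par_exists_conj (γ : SL(2, ℤ))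
    (hγ : ((γ : Matrix (Fin 2) (Fin 2) ℤ)).trace ^ 2 = 4) :
    ∃ δ : SL(2, ℤ), (δ⁻¹ * γ * δ) 1 0 = 0 := by
  have hdet : γ 0 0 * γ 1 1 - γ 0 1 * γ 1 0 = 1 := by
    have := γ.det_coe
    rwa [Matrix.det_fin_two] at this
  have htr : (γ 0 0 + γ 1 1) ^ 2 = 4 := by
    rwa [Matrix.trace_fin_two] at hγ
  have hdisc : (γ 0 0 - γ 1 1) ^ 2 + 4 * (γ 0 1 * γ 1 0) = 0 := by
    linear_combination htr - 4 * hdet
  by_cases hc : γ 1 0 = 0
  · refine ⟨1, ?_⟩
    simpa using hc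
  · -- the primitive eigenvector `(a - d, 2 c) / gcd`
    set g : ℤ := (Int.gcd (γ 0 0 - γ 1 1) (2 * γ 1 0) : ℤ) with hg
    have hg0 : g ≠ 0 := by
      rw [hg]
      intro h0
      have h1 : Int.gcd (γ 0 0 - γ 1 1) (2 * γ 1 0) = 0 := by exact_mod_cast h0
      rw [Int.gcd_eq_zero_iff] at h1
      have : γ 1 0 = 0 := by linarith [h1.2]
      exact hc this
    obtain ⟨x, hx⟩ : g ∣ γ 0 0 - γ 1 1 := Int.gcd_dvd_left _ _
    obtain ⟨y, hy⟩ : g ∣ 2 * γ 1 0 := Int.gcd_dvd_right _ _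
    have hcop : IsCoprime x y := by
      obtain ⟨u, v, huv⟩ : ∃ u v : ℤ, g = (γ 0 0 - γ 1 1) * u + (2 * γ 1 0) * v :=
        ⟨_, _, Int.gcd_eq_gcd_ab _ _⟩
      refine ⟨u, v, ?_⟩
      have h2 : g * (u * x + v * y) = g * 1 := by
        rw [mul_one]
        conv_rhs => rw [huv, hx, hy]
        ring
      exact mul_left_cancel₀ hg0 h2
    obtain ⟨δ, hδ0, hδ1⟩ := hcop.exists_SL2_col 0
    refine ⟨δ, ?_⟩
    rw [par_conj_apply_one_zero, hδ0, hδ1]
    have h4 : (2 * g) ^ 2 * (γ 1 0 * x ^ 2 + (γ 1 1 - γ 0 0) * x * y - γ 0 1 * y ^ 2) = 0 := by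
      have e1 : g * x = γ 0 0 - γ 1 1 := hx.symm
      have e2 : g * y = 2 * γ 1 0 := hy.symm
      have : (2 * g) ^ 2 * (γ 1 0 * x ^ 2 + (γ 1 1 - γ 0 0) * x * y - γ 0 1 * y ^ 2)
          = 4 * γ 1 0 * (g * x) ^ 2 + 4 * (γ 1 1 - γ 0 0) * (g * x) * (g * y)
            - 4 * γ 0 1 * (g * y) ^ 2 := by ring
      rw [this, e1, e2]
      linear_combination (-4 * γ 1 0) * hdisc
    rcases mul_eq_zero.mp h4 with h | h
    · exact absurd (pow_eq_zero_iff (two_ne_zero) |>.mp h) (mul_ne_zero two_ne_zero hg0)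
    · exact h

/-- Translations preserve the filter `atImInfty`. -/
theorem par_tendsto_T_zpow_smul (n : ℤ) :
    Tendsto (fun w : ℍ => ModularGroup.T ^ n • w) atImInfty atImInfty := by
  rw [atImInfty, tendsto_comap_iff]
  have : (UpperHalfPlane.im ∘ fun w : ℍ => ModularGroup.T ^ n • w) = UpperHalfPlane.im := by
    funext w
    exact ModularGroup.im_T_zpow_smul w n
  rw [this]
  exact tendsto_comap

/-- A function on `ℍ` with constant `γ`-increment, such that all translates `F ∘ δ` have a limit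
at `i∞`, has zero increment along every parabolic `γ`. -/
theorem par_increment_eq_zero (F : ℍ → ℂ)
    (hlim : ∀ δ : SL(2, ℤ), ∃ L : ℂ, Tendsto (fun w : ℍ => F (δ • w)) atImInfty (𝓝 L))
    (γ : SL(2, ℤ)) (hγ : ((γ : Matrix (Fin 2) (Fin 2) ℤ)).trace ^ 2 = 4)
    (c : ℂ) (hc : ∀ z : ℍ, F (γ • z) - F z = c) : c = 0 := by
  obtain ⟨δ, hδ⟩ := par_exists_conj γ hγ
  obtain ⟨n, hn⟩ := ModularGroup.exists_eq_T_zpow_of_c_eq_zero hδ
  obtain ⟨L, hL⟩ := hlim δ
  have hkey : ∀ w : ℍ, F (δ • (ModularGroup.T ^ n • w)) - F (δ • w) = c := by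
    intro w
    rw [← hc (δ • w), ← hn w]
    congr 2
    rw [← mul_smul, ← mul_smul]
    congr 1
    group
  have h1 : Tendsto (fun w : ℍ => F (δ • (ModularGroup.T ^ n • w))) atImInfty (𝓝 L) :=
    hL.comp (par_tendsto_T_zpow_smul n)
  have h2 : Tendsto (fun w : ℍ => F (δ • (ModularGroup.T ^ n • w)) - F (δ • w)) atImInfty
      (𝓝 (L - L)) := h1.sub hL
  have h3 : Tendsto (fun _ : ℍ => c) atImInfty (𝓝 (L - L)) := by
    refine h2.congr fun w => hkey w
  have h4 := tendsto_nhds_unique h3 tendsto_const_nhds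
  rw [sub_self] at h4
  exact h4.symm

/-- **(PAR)** the periods of a cusp form vanish on the elements of trace `±2`. -/
theorem par (N : ℕ) [NeZero N] (hprim : PrimStatement N) (hper : PeriodEqStatement N) :
    ParStatement N := by
  intro f
  obtain ⟨F, hF⟩ := hprim f
  rw [mem_parabolicHoms_iff]
  intro γ hγ
  exact par_increment_eq_zero F hF.2.2.2 (γ : SL(2, ℤ)) hγ _
    (fun z => (hper f F hF γ z).symm)

end Fermat.Agent.S21
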